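import Fermat.Agent.LanglandsTunnell.SeedCoeff.Data
import Fermat.Agent.LanglandsTunnell.Seed.Sys

/-!
# The data of the theta series attached to a datum

`exists_seedSys` packages the seed character of a datum as a seed system over the field `M` of
the datum, with level a power of the seed modulus.  It is the input of
`LanglandsTunnell.SeedCoeff.DatumSeed`.
-/

set_option autoImplicit false

noncomputable section

namespace FLTAgent.LanglandsTunnell.SeedCoeff

open FLTAgent.LanglandsTunnell FLTAgent.LanglandsTunnell.Seed NumberField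

namespace SeedChar

variable {M L ι : Type} [Field M] [NumberField M] [Field L] [NumberField L] [Algebra M L]
  [Fintype ι] {T : Setting M L ι} (C : SeedChar T)

theorem under_sup_eq_top {Q : Ideal (𝓞 L)} (hQ : Q.IsMaximal) (h : PrimeTo T C.s Q) :
    (Q.under (𝓞 M)).IsMaximal ∧ Q.under (𝓞 M) ⊔ C.s = ⊤ := by
  have := hQ
  have hm : (Q.under (𝓞 M)).IsMaximal := Ideal.IsMaximal.under (𝓞 M) Q
  refine ⟨hm, ?_⟩
  by_contra hne
  exact C.not_primeTo_of_over hm hne hQ Ideal.map_comap_le h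

theorem ψ_conj_mul : ∀ I : Ideal (𝓞 L), I ≠ ⊥ → PrimeTo T C.s I →
    C.ψ (conjI T I) * C.ψ I = 1 := by
  intro I
  induction I using UniqueFactorizationMonoid.induction_on_prime with
  | h₁ => exact fun h => absurd rfl h
  | h₂ I hI =>
    intro _ _
    rw [Ideal.isUnit_iff.mp hI, conjI, Ideal.map_top, C.ψ_top, one_mul]
  | h₃ I Q hI hQ ih =>
    intro _ hs
    obtain ⟨hs1, hs2⟩ := C.primeTo_mul.mp hs
    have hQm : Q.IsMaximal := (Ideal.isPrime_of_prime hQ).isMaximal hQ.ne_zero
    obtain ⟨hm, hms⟩ := C.under_sup_eq_top hQm hs1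
    have h1 : C.ψ (conjI T Q) * C.ψ Q = 1 := by
      by_cases heq : conjI T Q = Q
      · rw [heq, (C.inert _ Q hm hms hQm Ideal.map_comap_le heq).1]; norm_num
      · rw [mul_comm]; exact (C.split _ Q hm hms hQm Ideal.map_comap_le heq).1
    have h2 := ih hI hs2
    rw [conjI, Ideal.map_mul, C.ψ_mul, C.ψ_mul]
    linear_combination C.ψ (conjI T I) * C.ψ I * h1 + h2

end SeedChar

variable {D : Datum} (P : ExtPlaces D)

/-- A seed system for a datum, of level a power of the modulus, with its character. -/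
theorem exists_seedSys (hrec : ReciprocitySpec) :
    ∃ (j e : ℕ) (S : SeedSys D.M (fieldL D) (Fin 3)) (C : SeedChar (seedSetting P)),
      1 ≤ j ∧ S.T = seedSetting P ∧ S.n = seedModulus D ^ j ∧ S.ψ = C.ψ ∧
      C.s = Ideal.span {(S.s : 𝓞 D.M)} ∧ C.a = seedEigen D ∧ C.s = seedModulus D ^ (e + 1) ∧
      ∀ w : Ideal (𝓞 D.M), w.IsPrime → w ≠ ⊥ → ¬ w ∣ seedModulus D ^ j → w ⊔ C.s = ⊤ := by
  classical
  obtain ⟨e, C, hCs, hCa, haux⟩ := exists_seedChar P hrec
  obtain ⟨j, hj, hlev⟩ := exists_level P (e + 1)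
  set s : ℕ := seedBase D ^ (e + 1) with hsdef
  have hs0 : s ≠ 0 := pow_ne_zero _ (seedBase_ne_zero D)
  have hspan : seedModulus D ^ (e + 1) = Ideal.span {(s : 𝓞 D.M)} := by
    rw [seedModulus, Ideal.span_singleton_pow, hsdef, Nat.cast_pow]
  have hspanL : upI (seedSetting P) C.s = Ideal.span {(s : 𝓞 (fieldL D))} := by
    rw [hCs, hspan, upI, Ideal.map_span, Set.image_singleton, map_natCast]
  have hcop : ∀ I : Ideal (𝓞 (fieldL D)), Cop s I ↔ I ≠ ⊥ ∧ PrimeTo (seedSetting P) C.s I :=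
    fun I => by rw [PrimeTo, hspanL]; rfl
  set n : Ideal (𝓞 D.M) := seedModulus D ^ j with hn
  have hn0 : n ≠ ⊥ := pow_ne_zero _ (seedModulus_ne_bot D)
  have hmem : ∀ w : Ideal (𝓞 D.M), w.IsMaximal → n ≤ w → seedModulus D ^ (e + 1) ≤ w :=
    fun w hw h => (Ideal.pow_le_self e.succ_ne_zero).trans
      ((Ideal.IsPrime.pow_le_iff (hP := hw.isPrime) (by omega)).mp h)
  have hgood : ∀ w : Ideal (𝓞 D.M), w.IsMaximal → ¬ n ≤ w → w ⊔ C.s = ⊤ := fun w hw h => by
    rw [hCs]
    exact Ideal.sup_pow_eq_top (sup_seedModulus_eq_top hj hw.isPrime (maximal_ne_bot hw)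
      fun hd => h (Ideal.le_of_dvd hd))
  have hnle : n ≤ seedModulus D ^ (e + 1) := by
    have h1 : upI (seedSetting P) n ≤ upI (seedSetting P) (seedModulus D ^ (e + 1)) :=
      hlev.trans (Ideal.mul_le_left.trans (Ideal.pow_le_self two_ne_zero))
    have h := Ideal.comap_mono (f := algebraMap (𝓞 D.M) (𝓞 (fieldL D))) h1
    rwa [(seedSetting P).comap_map, (seedSetting P).comap_map] at h
  refine ⟨j, e, {
    T := seedSetting P
    s := s
    s_ne := hs0
    n := n
    n_ne := hn0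
    n_le_span := hspan ▸ hnle
    n_le_diff := by rw [← hspan]; exact hlev
    mem_of_le := fun w hw h => hmem w hw h (by rw [hspan]; exact Ideal.mem_span_singleton_self _)
    unram := fun w hw h => C.unram w hw (hgood w hw h)
    ψ := C.ψ
    psi_top := C.ψ_top
    psi_mul := fun I J _ _ => C.ψ_mul I J
    norm_psi := fun I h => C.norm_ψ ((hcop I).mp h).1 ((hcop I).mp h).2
    psi_congr := fun a b ha hb h hab => C.ψ_congr a b ha hb ((hcop _).mp h).2 (hspanL.symm ▸ hab)
    psi_c := fun I h => C.ψ_conj_mul I ((hcop I).mp h).1 ((hcop I).mp h).2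
    psi_inert := fun w hw h hns => by
      refine (C.ψ_up_prime hw (hgood w hw h)).trans ?_
      rw [SeedChar.sign, if_neg hns]
    exists_aux := fun m hm => by
      obtain ⟨Q, hQ, hQs, hmQ, hne⟩ := haux m hm
      refine ⟨Q, hQ,
        ⟨Ring.ne_bot_of_isMaximal_of_not_isField hQ (RingOfIntegers.not_isField _), ?_⟩, hne⟩
      rw [← Ideal.isCoprime_iff_sup_eq, Nat.cast_mul,
        ← Ideal.span_singleton_mul_span_singleton, IsCoprime.mul_right_iff,
        Ideal.isCoprime_iff_sup_eq, Ideal.isCoprime_iff_sup_eq, ← hspanL]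
      refine ⟨?_, hQs⟩
      by_contra h
      exact hmQ ((le_sup_right.trans (hQ.eq_of_le h le_sup_left).ge)
        (Ideal.mem_span_singleton_self _)) }, C, hj, rfl, rfl, rfl, hCs.trans hspan, hCa, hCs,
    fun w hw hw0 h => ?_⟩
  exact hgood w (hw.isMaximal hw0) fun hle => h (Ideal.dvd_iff_le.mpr hle)

end FLTAgent.LanglandsTunnell.SeedCoeff
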