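import Fermat.Agent.LanglandsTunnell.SeedCoeff.Glue
import Fermat.Agent.LanglandsTunnell.SeedCoeff.Adapter
import Fermat.Agent.LanglandsTunnell.Interfaces

/-!
# The seed function of a datum: Hecke eigenvalues and Galois invariance

`exists_datumSeed` proves the algebraic clauses of `SeedSpec` for the seed function of a datum;
the analytic ones only depend on the seed system.  It is consumed by
`LanglandsTunnell.Seed.SeedSpec`.
-/

set_option autoImplicit false

noncomputable section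

namespace FLTAgent.LanglandsTunnell.SeedCoeff

open FLTAgent.LanglandsTunnell FLTAgent.LanglandsTunnell.Seed NumberField Matrix

variable {D : Datum} (P : ExtPlaces D)

theorem seedFun_hecke_of_eq {T : Setting D.M (fieldL D) (Fin 3)}
    {S : SeedSys D.M (fieldL D) (Fin 3)} (hT : S.T = T) (C : SeedChar T) (hψ : S.ψ = C.ψ)
    (hs : C.s = Ideal.span {(S.s : 𝓞 D.M)}) {w : Ideal (𝓞 D.M)} (hw : w.IsPrime) (hw0 : w ≠ ⊥)
    (hwn : ¬ w ∣ S.n) (hws : w ⊔ C.s = ⊤) : HeckeEigen (seedFun S) w (C.a w) := by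
  subst hT
  exact seedFun_hecke ⟨hψ, hs⟩ hw hw0 hwn hws

theorem seedFun_galois_of_eq {S : SeedSys D.M (fieldL D) (Fin 3)} (hT : S.T = seedSetting P)
    (C : SeedChar (seedSetting P)) (hψ : S.ψ = C.ψ) (hs : C.s = Ideal.span {(S.s : 𝓞 D.M)})
    {d : ℕ} (hCs : C.s = seedModulus D ^ (d + 1)) (hCa : C.a = seedEigen D) {N : ℕ}
    (hn : S.n = Ideal.span {(N : 𝓞 D.M)}) : GalInvariant P (seedFun S) := by
  intro σ e _ he g Q
  have key : ∀ (T : Setting D.M (fieldL D) (Fin 3)) (C : SeedChar T), S.T = T → S.ψ = C.ψ →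
      C.s = Ideal.span {(S.s : 𝓞 D.M)} →
      (∀ i, T.Φ.emb (e i) = (T.Φ.emb i).comp (σ.toRingEquiv : D.M →+* D.M)) →
      S.n.map (RingOfIntegers.mapRingHom (σ.toRingEquiv : D.M →+* D.M)) ≤ S.n →
      (∀ m : Ideal (𝓞 D.M), m ≠ ⊥ → C.coef (m.map ((RingOfIntegers.mapRingEquiv σ.toRingEquiv :
        𝓞 D.M ≃+* 𝓞 D.M) : 𝓞 D.M →+* 𝓞 D.M)) = C.coef m) →
      seedFun S ((GeneralLinearGroup.map (mapAF (σ.toRingEquiv : D.M →+* D.M)).toRingHom g :
          FinPt D.M S.n), fun i => Q (e i)) = seedFun S ((g : FinPt D.M S.n), Q) := by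
    intro T C hT hψ hs he hn hσ
    subst hT
    exact seedFun_galois ⟨hψ, hs⟩ _ e he hn hσ g Q
  refine key _ C hT hψ hs he ?_ fun m hm => coef_seed_map P C hCs hCa σ hm
  rw [hn, Ideal.map_span, Set.image_singleton, map_natCast]

/-- A seed system for a datum whose function has the eigenvalues of `ρ` outside the level and is
invariant under `Gal(M/E)`. -/
theorem exists_datumSeed (hrec : ReciprocitySpec) :
    ∃ (k B : ℕ) (S : SeedSys D.M (fieldL D) (Fin 3)) (a : Ideal (𝓞 D.M) → ℂ),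
      0 < B ∧ S.T = seedSetting P ∧
      S.n = Ideal.span {((3 ^ k * D.badPart ^ B : ℕ) : 𝓞 D.M)} ∧
      ((∀ A : ValuationSubring QB, A.LiesOverPrime 3 → LineShape D.ρ A) → k = 0) ∧
      GalInvariant P (seedFun S) ∧
      (∀ w : Ideal (𝓞 D.M), w.IsPrime → w ≠ ⊥ → ¬ w ∣ S.n → HeckeEigen (seedFun S) w (a w)) ∧
      ∀ w : Ideal (𝓞 D.M), w.IsPrime → w ≠ ⊥ → ¬ w ∣ S.n →
        ∀ g, IsFrobOver D.M w g → a w = trLift (D.ρ g) := by
  classical
  obtain ⟨j, e, S, C, hj, hT, hn, hψ, hs, hCa, hCs, hcop⟩ := exists_seedSys P hrec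
  have hlev : S.n = Ideal.span
      {((3 ^ (if AllLine D then 0 else j) * D.badPart ^ j : ℕ) : 𝓞 D.M)} := by
    rw [hn, seedModulus, seedBase, Ideal.span_singleton_pow, ← Nat.cast_pow, mul_pow]
    split_ifs <;> simp
  refine ⟨_, j, S, C.a, hj, hT, hlev, fun h => if_pos h,
    seedFun_galois_of_eq P hT C hψ hs hCs hCa hlev,
    fun w hw hw0 hwn => seedFun_hecke_of_eq hT C hψ hs hw hw0 hwn (hcop w hw hw0 (hn ▸ hwn)),
    fun w hw hw0 hwn g hg => ?_⟩
  have := hw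
  rw [hCa]
  exact seedEigen_eq D hw0 (sup_eq_top_of_sup_pow (hCs ▸ hcop w hw hw0 (hn ▸ hwn))) hg

end FLTAgent.LanglandsTunnell.SeedCoeff
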