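import Fermat.Agent.LanglandsTunnell.SeedCoeff.Primes

/-!
# The character of the seed and the coefficients of its theta series

The coefficient `coef m` at an integral ideal `m` of `M` is the sum of the character over the
ideals of `L` of norm `m` prime to the modulus.  It satisfies the Hecke recursions
(`coef_mul_mul`, `coef_mul_of_not_dvd`) and is invariant under automorphisms (`coef_map`); the
series of the seed is built from it.
-/

set_option autoImplicit false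

noncomputable section

namespace FLTAgent.LanglandsTunnell.SeedCoeff

open FLTAgent.LanglandsTunnell FLTAgent.LanglandsTunnell.Seed NumberField

variable {M L ι : Type} [Field M] [NumberField M] [Field L] [NumberField L] [Algebra M L]
  [Fintype ι]

/-- An ideal of `L` prime to the extension of `s`. -/
def PrimeTo (T : Setting M L ι) (s : Ideal (𝓞 M)) (B : Ideal (𝓞 L)) : Prop := B ⊔ upI T s = ⊤

/-- A character of the quadratic extension with modulus `s` from `M`, and its eigenvalues. -/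
structure SeedChar (T : Setting M L ι) : Type where
  /-- The modulus. -/
  s : Ideal (𝓞 M)
  /-- The character. -/
  ψ : Ideal (𝓞 L) → ℂ
  /-- The eigenvalues. -/
  a : Ideal (𝓞 M) → ℂ
  s_ne : s ≠ ⊥
  ψ_mul : ∀ I J, ψ (I * J) = ψ I * ψ J
  ψ_top : ψ ⊤ = 1
  ψ_pow : ∀ I, I ≠ ⊥ → PrimeTo T s I → ψ I ^ 4 = 1
  ψ_congr : ∀ x y : 𝓞 L, x ≠ 0 → y ≠ 0 → PrimeTo T s (Ideal.span {x}) → x - y ∈ upI T s →
    ψ (Ideal.span {x}) = ψ (Ideal.span {y})
  unram : ∀ P : Ideal (𝓞 M), P.IsMaximal → P ⊔ s = ⊤ → T.ringData.Unram P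
  split : ∀ (P : Ideal (𝓞 M)) (Q : Ideal (𝓞 L)), P.IsMaximal → P ⊔ s = ⊤ → Q.IsMaximal →
    upI T P ≤ Q → conjI T Q ≠ Q → ψ Q * ψ (conjI T Q) = 1 ∧ a P = ψ Q + ψ (conjI T Q)
  inert : ∀ (P : Ideal (𝓞 M)) (Q : Ideal (𝓞 L)), P.IsMaximal → P ⊔ s = ⊤ → Q.IsMaximal →
    upI T P ≤ Q → conjI T Q = Q → ψ Q = -1 ∧ a P = 0
  nontriv : ∃ Q : Ideal (𝓞 L), Q.IsMaximal ∧ PrimeTo T s Q ∧ conjI T Q ≠ Q ∧
    ψ Q ≠ ψ (conjI T Q)

namespace SeedChar

variable {T : Setting M L ι} (C : SeedChar T)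

theorem primeTo_mul {I J : Ideal (𝓞 L)} :
    PrimeTo T C.s (I * J) ↔ PrimeTo T C.s I ∧ PrimeTo T C.s J := by
  simp only [PrimeTo, ← Ideal.isCoprime_iff_sup_eq]
  exact IsCoprime.mul_left_iff

theorem primeTo_of_over {P : Ideal (𝓞 M)} (hP : P ⊔ C.s = ⊤) {Q : Ideal (𝓞 L)}
    (hle : upI T P ≤ Q) : PrimeTo T C.s Q := by
  refine top_le_iff.mp (le_trans ?_ (sup_le_sup_right hle _))
  rw [← Ideal.map_sup, hP, Ideal.map_top]

theorem not_primeTo_of_over {P : Ideal (𝓞 M)} (hP : P.IsMaximal) (hPs : P ⊔ C.s ≠ ⊤)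
    {Q : Ideal (𝓞 L)} (hQ : Q.IsMaximal) (hle : upI T P ≤ Q) : ¬ PrimeTo T C.s Q := by
  intro h
  have hsP : C.s ≤ P := le_sup_right.trans (hP.eq_of_le hPs le_sup_left).ge
  exact hQ.ne_top (top_le_iff.mp (h ▸ sup_le le_rfl ((Ideal.map_mono hsP).trans hle)))

theorem norm_ψ {I : Ideal (𝓞 L)} (hI : I ≠ ⊥) (h : PrimeTo T C.s I) : ‖C.ψ I‖ = 1 := by
  have h4 := congrArg norm (C.ψ_pow I hI h)
  rw [norm_pow, norm_one] at h4
  exact (pow_eq_one_iff_of_nonneg (norm_nonneg _) four_ne_zero).mp h4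

/-! ### The sign character of the extension -/

open scoped Classical in
/-- The sign of a prime. -/
def sign (T : Setting M L ι) (P : Ideal (𝓞 M)) : ℂ := if T.ringData.Splits P then 1 else -1

open scoped Classical in
/-- The completely multiplicative extension of the sign. -/
def eta (T : Setting M L ι) (m : Ideal (𝓞 M)) : ℂ :=
  if m = ⊥ then 0 else ((UniqueFactorizationMonoid.normalizedFactors m).map (sign T)).prod

theorem eta_top (T : Setting M L ι) : eta T ⊤ = 1 := by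
  rw [eta, if_neg top_ne_bot, ← Ideal.one_eq_top, UniqueFactorizationMonoid.normalizedFactors_one]
  simp

theorem eta_prime_mul (T : Setting M L ι) {P : Ideal (𝓞 M)} (hP : P.IsMaximal)
    (J : Ideal (𝓞 M)) : eta T (P * J) = sign T P * eta T J := by
  by_cases hJ : J = ⊥
  · simp [eta, hJ]
  have hP0 := maximal_ne_bot hP
  rw [eta, eta, if_neg hJ,
    if_neg (show P * J ≠ ⊥ from fun h => (Ideal.mul_eq_bot.mp h).elim hP0 hJ),
    UniqueFactorizationMonoid.normalizedFactors_mul hP0 hJ,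
    UniqueFactorizationMonoid.normalizedFactors_irreducible
      (Ideal.prime_of_isPrime hP0 hP.isPrime).irreducible]
  simp

open scoped Classical in
/-- The hypothesis of the transformation formula. -/
theorem eta_unram (T : Setting M L ι) (P J : Ideal (𝓞 M)) (hP : P.IsMaximal) :
    eta T (P * J) = (if T.ringData.Splits P then 1 else -1) * eta T J := by
  rw [eta_prime_mul T hP, sign]

theorem ψ_up_prime {P : Ideal (𝓞 M)} (hP : P.IsMaximal) (hPs : P ⊔ C.s = ⊤) :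
    C.ψ (upI T P) = sign T P := by
  classical
  obtain ⟨Q, hQ, hle⟩ := exists_over T P hP
  by_cases heq : conjI T Q = Q
  · rw [(inert_data T hP (C.unram P hP hPs) hQ hle heq).1, (C.inert P Q hP hPs hQ hle heq).1,
      sign, if_neg]
    exact fun h => (splits_iff T hP hQ hle).mp h heq
  · rw [(split_data T hP hQ hle heq).1, C.ψ_mul, (C.split P Q hP hPs hQ hle heq).1, sign,
      if_pos ((splits_iff T hP hQ hle).mpr heq)]

/-! ### Coefficients -/

/-- The ideals that make up the coefficient at `m`. -/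
def coefSet (m : Ideal (𝓞 M)) : Set (Ideal (𝓞 L)) :=
  {B | Ideal.relNorm (𝓞 M) B = m ∧ PrimeTo T C.s B}

/-- The coefficient at `m`. -/
def coef (m : Ideal (𝓞 M)) : ℂ := ∑ᶠ B ∈ C.coefSet m, C.ψ B

include T in
omit [Fintype ι] T in
theorem finite_relNorm_eq {m : Ideal (𝓞 M)} (_hm : m ≠ ⊥) :
    {B : Ideal (𝓞 L) | Ideal.relNorm (𝓞 M) B = m}.Finite := by
  refine (Ideal.finite_setOfPred_absNorm_le (S := 𝓞 L) (Ideal.absNorm m)).subset
    fun B hB => ?_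
  show Ideal.absNorm B ≤ Ideal.absNorm m
  rw [← Ideal.absNorm_relNorm (R := 𝓞 M) (I := B), hB]

theorem finite_coefSet {m : Ideal (𝓞 M)} (hm : m ≠ ⊥) : (C.coefSet m).Finite :=
  (finite_relNorm_eq hm).subset fun _ h => h.1

/-- The ideals whose norm is `m` divided by `P`. -/
def quotSet (P m : Ideal (𝓞 M)) : Set (Ideal (𝓞 L)) :=
  {B | P * Ideal.relNorm (𝓞 M) B = m ∧ PrimeTo T C.s B}

theorem quotSet_mul {P n : Ideal (𝓞 M)} (hP : P.IsMaximal) :
    C.quotSet P (P * n) = C.coefSet n :=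
  Set.ext fun _ => and_congr_left fun _ => mul_right_inj' (maximal_ne_bot hP)

theorem quotSet_of_not_dvd {P m : Ideal (𝓞 M)} (h : ¬ P ∣ m) : C.quotSet P m = ∅ :=
  Set.eq_empty_iff_forall_notMem.mpr fun _ hB => h ⟨_, hB.1.symm⟩

theorem finsum_mem_mul_left {Q : Ideal (𝓞 L)} (hQ : Q ≠ ⊥) (S : Set (Ideal (𝓞 L))) :
    ∑ᶠ B ∈ (Q * ·) '' S, C.ψ B = C.ψ Q * ∑ᶠ B ∈ S, C.ψ B := by
  rw [finsum_mem_image (fun a _ b _ h => mul_left_cancel₀ hQ h), mul_finsum_mem]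
  exact finsum_congr fun B => finsum_congr fun _ => C.ψ_mul Q B

theorem image_split {P m : Ideal (𝓞 M)} (hP : P.IsMaximal) (hPs : P ⊔ C.s = ⊤)
    {Q : Ideal (𝓞 L)} (hle : upI T P ≤ Q) (hN : Ideal.relNorm (𝓞 M) Q = P) :
    (Q * ·) '' C.coefSet m = {B ∈ C.coefSet (P * m) | Q ∣ B} := by
  ext B
  constructor
  · rintro ⟨B', ⟨h1, h2⟩, rfl⟩
    exact ⟨⟨by rw [map_mul, hN, h1], C.primeTo_mul.mpr ⟨C.primeTo_of_over hPs hle, h2⟩⟩,
      dvd_mul_right _ _⟩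
  · rintro ⟨⟨h1, h2⟩, B', rfl⟩
    refine ⟨B', ⟨?_, (C.primeTo_mul.mp h2).2⟩, rfl⟩
    rw [map_mul, hN] at h1
    exact mul_left_cancel₀ (maximal_ne_bot hP) h1

theorem image_up {P m : Ideal (𝓞 M)} (hP : P.IsMaximal) (hPs : P ⊔ C.s = ⊤) :
    (upI T P * ·) '' C.quotSet P m = {B ∈ C.coefSet (P * m) | upI T P ∣ B} := by
  ext B
  constructor
  · rintro ⟨B', ⟨h1, h2⟩, rfl⟩
    exact ⟨⟨by rw [map_mul, relNorm_up T, ← h1]; ring,
      C.primeTo_mul.mpr ⟨C.primeTo_of_over hPs le_rfl, h2⟩⟩, dvd_mul_right _ _⟩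
  · rintro ⟨⟨h1, h2⟩, B', rfl⟩
    refine ⟨B', ⟨?_, (C.primeTo_mul.mp h2).2⟩, rfl⟩
    rw [map_mul, relNorm_up T, sq, mul_assoc] at h1
    exact mul_left_cancel₀ (maximal_ne_bot hP) h1

theorem coef_mul_add {P m : Ideal (𝓞 M)} (hP : P.IsMaximal) (hPs : P ⊔ C.s = ⊤) (hm : m ≠ ⊥) :
    C.coef (P * m) + ∑ᶠ B ∈ C.quotSet P m, C.ψ B = C.a P * C.coef m := by
  obtain ⟨Q, hQ, hle⟩ := exists_over T P hP
  have hP0 := maximal_ne_bot hP
  have hQ0 : Q ≠ ⊥ := Ring.ne_bot_of_isMaximal_of_not_isField hQ (RingOfIntegers.not_isField L)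
  have hfin := C.finite_coefSet (mul_ne_zero hP0 hm)
  have hdvd : ∀ B ∈ C.coefSet (P * m), Q ∣ B ∨ conjI T Q ∣ B := by
    intro B hB
    have hB0 : B ≠ ⊥ := fun h => mul_ne_zero hP0 hm (by rw [← hB.1, h, Ideal.relNorm_bot]; rfl)
    obtain ⟨Q', hQ', hle', hdvd⟩ := exists_dvd_of_dvd_relNorm T hP B hB0 (hB.1 ▸ dvd_mul_right _ _)
    rcases eq_or_eq_of_over T hP hQ hle hQ' hle' with rfl | rfl
    · exact Or.inl hdvd
    · exact Or.inr hdvd
  have hup0 : upI T P ≠ ⊥ := fun h => hP0 (T.map_injective (h.trans Ideal.map_bot.symm))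
  by_cases heq : conjI T Q = Q
  · obtain ⟨hψ, ha⟩ := C.inert P Q hP hPs hQ hle heq
    obtain ⟨hup, -⟩ := inert_data T hP (C.unram P hP hPs) hQ hle heq
    have hS : C.coefSet (P * m) = (upI T P * ·) '' C.quotSet P m := by
      rw [C.image_up hP hPs]
      refine (Set.sep_eq_self_iff_mem_true.mpr fun B hB => ?_).symm
      rcases hdvd B hB with h | h
      · exact hup.symm ▸ h
      · exact hup.symm ▸ heq ▸ h
    rw [coef, hS, C.finsum_mem_mul_left hup0, hup, hψ, ha]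
    ring
  · obtain ⟨hψ, ha⟩ := C.split P Q hP hPs hQ hle heq
    obtain ⟨hup, hN⟩ := split_data T hP hQ hle heq
    have hcN : Ideal.relNorm (𝓞 M) (conjI T Q) = P := by rw [relNorm_conjI T, hN]
    have hcQ := isMaximal_conjI T hQ
    set U := {B ∈ C.coefSet (P * m) | Q ∣ B}
    set V := {B ∈ C.coefSet (P * m) | conjI T Q ∣ B}
    have hU : (Q * ·) '' C.coefSet m = U := C.image_split hP hPs hle hN
    have hV : (conjI T Q * ·) '' C.coefSet m = V :=
      C.image_split hP hPs (up_le_conjI T hle) hcN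
    have hUV : U ∪ V = C.coefSet (P * m) :=
      Set.ext fun B => ⟨fun h => h.elim And.left And.left, fun h =>
        (hdvd B h).imp (⟨h, ·⟩) (⟨h, ·⟩)⟩
    have hI : U ∩ V = (upI T P * ·) '' C.quotSet P m := by
      rw [C.image_up hP hPs]
      refine Set.ext fun B => ⟨fun ⟨⟨h, h1⟩, ⟨_, h2⟩⟩ => ⟨h, ?_⟩, fun ⟨h, h1⟩ => ?_⟩
      · rw [hup]
        exact IsCoprime.mul_dvd (Ideal.isCoprime_iff_sup_eq.mpr
          (hQ.coprime_of_ne hcQ (Ne.symm heq))) h1 h2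
      · rw [hup] at h1
        exact ⟨⟨h, (dvd_mul_right _ _).trans h1⟩, ⟨h, (dvd_mul_left _ _).trans h1⟩⟩
    have key := finsum_mem_union_inter (f := C.ψ) (hfin.subset (fun B h => h.1) : U.Finite)
      (hfin.subset (fun B h => h.1) : V.Finite)
    rw [hUV, hI, C.finsum_mem_mul_left hup0, hup, C.ψ_mul, hψ, one_mul, ← hU, ← hV,
      C.finsum_mem_mul_left hQ0, C.finsum_mem_mul_left
        (Ring.ne_bot_of_isMaximal_of_not_isField hcQ (RingOfIntegers.not_isField L))] at key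
    rw [coef, key, ha, coef, add_mul]

/-- The recursion at a prime dividing `m`. -/
theorem coef_mul_mul {P n : Ideal (𝓞 M)} (hP : P.IsMaximal) (hPs : P ⊔ C.s = ⊤) (hn : n ≠ ⊥) :
    C.coef (P * (P * n)) + C.coef n = C.a P * C.coef (P * n) := by
  have h := C.coef_mul_add hP hPs (mul_ne_zero (maximal_ne_bot hP) hn)
  rwa [C.quotSet_mul hP] at h

/-- The recursion at a prime not dividing `m`. -/
theorem coef_mul_of_not_dvd {P m : Ideal (𝓞 M)} (hP : P.IsMaximal) (hPs : P ⊔ C.s = ⊤)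
    (hm : m ≠ ⊥) (h : ¬ P ∣ m) : C.coef (P * m) = C.a P * C.coef m := by
  have h' := C.coef_mul_add hP hPs hm
  rwa [C.quotSet_of_not_dvd h, finsum_mem_empty, add_zero] at h'

/-- The coefficients vanish at ideals meeting the modulus. -/
theorem coef_eq_zero {P m : Ideal (𝓞 M)} (hP : P.IsMaximal) (hPs : P ⊔ C.s ≠ ⊤) (hm : m ≠ ⊥)
    (h : P ∣ m) : C.coef m = 0 := by
  rw [coef, show C.coefSet m = ∅ from Set.eq_empty_iff_forall_notMem.mpr fun B hB => ?_,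
    finsum_mem_empty]
  have hB0 : B ≠ ⊥ := fun h' => hm (by rw [← hB.1, h', Ideal.relNorm_bot])
  obtain ⟨Q, hQ, hle, K, rfl⟩ := exists_dvd_of_dvd_relNorm T hP B hB0 (hB.1 ▸ h)
  exact C.not_primeTo_of_over hP hPs hQ hle (C.primeTo_mul.mp hB.2).1

/-- Invariance under an automorphism of the integers of `M` fixing the eigenvalues. -/
theorem coef_map (σ : 𝓞 M ≃+* 𝓞 M) (hs : C.s.map (σ : 𝓞 M →+* 𝓞 M) = C.s)
    (ha : ∀ P : Ideal (𝓞 M), P.IsMaximal → P ⊔ C.s = ⊤ →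
      C.a (P.map (σ : 𝓞 M →+* 𝓞 M)) = C.a P) :
    ∀ m : Ideal (𝓞 M), m ≠ ⊥ → C.coef (m.map (σ : 𝓞 M →+* 𝓞 M)) = C.coef m := by
  intro m
  generalize hN : Ideal.absNorm m = N
  induction N using Nat.strong_induction_on generalizing m with
  | _ N ih =>
  intro hm
  by_cases htop : m = ⊤
  · subst htop; rw [Ideal.map_top]
  obtain ⟨P, hP, hmP⟩ := Ideal.exists_le_maximal m htop
  obtain ⟨m', rfl⟩ := Ideal.dvd_iff_le.mpr hmP
  have hP0 := maximal_ne_bot hP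
  have hm' : m' ≠ ⊥ := right_ne_zero_of_mul hm
  have hσm : ∀ J : Ideal (𝓞 M), J ≠ ⊥ → J.map (σ : 𝓞 M →+* 𝓞 M) ≠ ⊥ := fun J hJ h =>
    hJ ((Ideal.map_eq_bot_iff_of_injective σ.injective).mp h)
  have hcm : ∀ J : Ideal (𝓞 M),
      (J.map (σ : 𝓞 M →+* 𝓞 M)).comap (σ : 𝓞 M →+* 𝓞 M) = J := fun J =>
    Ideal.comap_map_of_bijective (σ : 𝓞 M →+* 𝓞 M) σ.bijective
  have hσP : (P.map (σ : 𝓞 M →+* 𝓞 M)).IsMaximal := Ideal.map_isMaximal_of_equiv σ
  have hsup : ∀ J : Ideal (𝓞 M), J.map (σ : 𝓞 M →+* 𝓞 M) ⊔ C.s = ⊤ ↔ J ⊔ C.s = ⊤ := fun J => by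
    conv_lhs => rw [← hs, ← Ideal.map_sup]
    exact ⟨fun h => by
      have := congrArg (Ideal.comap (σ : 𝓞 M →+* 𝓞 M)) h
      rwa [Ideal.comap_top, hcm] at this,
      fun h => by rw [h, Ideal.map_top]⟩
  by_cases hPs : P ⊔ C.s = ⊤
  swap
  · rw [C.coef_eq_zero hP hPs hm (dvd_mul_right _ _), C.coef_eq_zero hσP
      (fun h => hPs ((hsup P).mp h)) (hσm _ hm) (Ideal.map_mul (σ : 𝓞 M →+* 𝓞 M) P m' ▸
        dvd_mul_right _ _)]
  have hlt : ∀ J : Ideal (𝓞 M), J ≠ ⊥ → Ideal.absNorm J < Ideal.absNorm (P * J) := fun J hJ => by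
    rw [map_mul]
    refine lt_mul_left (Nat.pos_of_ne_zero fun h => hJ (Ideal.absNorm_eq_zero_iff.mp h)) ?_
    have h0 : Ideal.absNorm P ≠ 0 := fun h => hP0 (Ideal.absNorm_eq_zero_iff.mp h)
    have h1 : Ideal.absNorm P ≠ 1 := fun h => hP.ne_top (Ideal.absNorm_eq_one_iff.mp h)
    omega
  rw [Ideal.map_mul]
  by_cases hdvd : P ∣ m'
  · obtain ⟨n, rfl⟩ := hdvd
    have hn : n ≠ ⊥ := right_ne_zero_of_mul hm'
    have e1 := C.coef_mul_mul hP hPs hn
    have e2 := C.coef_mul_mul hσP ((hsup P).mpr hPs) (hσm n hn)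
    have i1 := ih _ (by rw [← hN]; exact hlt _ hm') (P * n) rfl hm'
    have i2 := ih _ (by rw [← hN]; exact (hlt n hn).trans (hlt _ hm')) n rfl hn
    rw [Ideal.map_mul] at i1 ⊢
    rw [eq_sub_of_add_eq e1, eq_sub_of_add_eq e2, i1, i2, ha P hP hPs]
  · have hdvd' : ¬ P.map (σ : 𝓞 M →+* 𝓞 M) ∣ m'.map (σ : 𝓞 M →+* 𝓞 M) := by
      rw [Ideal.dvd_iff_le] at hdvd ⊢
      intro h
      refine hdvd ?_
      have := Ideal.comap_mono (f := (σ : 𝓞 M →+* 𝓞 M)) h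
      rwa [hcm, hcm] at this
    rw [C.coef_mul_of_not_dvd hP hPs hm' hdvd,
      C.coef_mul_of_not_dvd hσP ((hsup P).mpr hPs) (hσm _ hm') hdvd',
      ih _ (by rw [← hN]; exact hlt _ hm') m' rfl hm', ha P hP hPs]

end SeedChar

end FLTAgent.LanglandsTunnell.SeedCoeff
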