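import Fermat.Agent.LanglandsTunnell.SeedCoeff.Series

/-!
# The normalised series under an automorphism of the base field

`IsImage` relates fractional ideals under an automorphism `σ` of `M`.  If the coefficients are
invariant under `σ` then the normalised series commutes with it (`form_galois`), which gives the
Galois invariance of the seed function in `LanglandsTunnell.SeedCoeff.Glue`.
-/

set_option autoImplicit false

noncomputable section

namespace FLTAgent.LanglandsTunnell.SeedCoeff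

open FLTAgent.LanglandsTunnell FLTAgent.LanglandsTunnell.Seed NumberField
open scoped nonZeroDivisors

variable {M : Type} [Field M] [NumberField M]

/-- `I'` is the image of `I` under `σ`. -/
structure IsImage (σ : M ≃+* M) (I I' : FractionalIdeal (𝓞 M)⁰ M) : Prop where
  fwd : ∀ x ∈ I, σ x ∈ I'
  bwd : ∀ x ∈ I', σ.symm x ∈ I

omit [NumberField M] in
theorem IsImage.symm {σ : M ≃+* M} {I I' : FractionalIdeal (𝓞 M)⁰ M} (h : IsImage σ I I') :
    IsImage σ.symm I' I := ⟨h.bwd, by simpa using h.fwd⟩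

omit [NumberField M] in
theorem IsImage.unique {σ : M ≃+* M} {I I' I'' : FractionalIdeal (𝓞 M)⁰ M} (h : IsImage σ I I')
    (h' : IsImage σ I I'') : I' = I'' :=
  le_antisymm (fun x hx => by simpa using h'.fwd _ (h.bwd x hx))
    (fun x hx => by simpa using h.fwd _ (h'.bwd x hx))

theorem map_mem_mul {σ : M ≃+* M} {I I' J J' : FractionalIdeal (𝓞 M)⁰ M}
    (hI : ∀ x ∈ I, σ x ∈ I') (hJ : ∀ x ∈ J, σ x ∈ J') : ∀ x ∈ I * J, σ x ∈ I' * J' := by
  intro x hx
  refine FractionalIdeal.mul_induction_on hx (fun a ha b hb => ?_) (fun a b ha hb => ?_)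
  · rw [map_mul]; exact FractionalIdeal.mul_mem_mul (hI a ha) (hJ b hb)
  · rw [map_add]; exact Submodule.add_mem _ ha hb

theorem IsImage.mul {σ : M ≃+* M} {I I' J J' : FractionalIdeal (𝓞 M)⁰ M} (hI : IsImage σ I I')
    (hJ : IsImage σ J J') : IsImage σ (I * J) (I' * J') :=
  ⟨map_mem_mul hI.fwd hJ.fwd, map_mem_mul (σ := σ.symm) hI.bwd hJ.bwd⟩

theorem isImage_spanSingleton (σ : M ≃+* M) (b : M) :
    IsImage σ (FractionalIdeal.spanSingleton (𝓞 M)⁰ b)
      (FractionalIdeal.spanSingleton (𝓞 M)⁰ (σ b)) := by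
  refine ⟨fun x hx => ?_, fun x hx => ?_⟩
  · obtain ⟨a, rfl⟩ := (FractionalIdeal.mem_spanSingleton _).mp hx
    refine (FractionalIdeal.mem_spanSingleton _).mpr ⟨RingOfIntegers.mapRingEquiv σ a, ?_⟩
    rw [Algebra.smul_def, Algebra.smul_def, map_mul]
    rfl
  · obtain ⟨a, rfl⟩ := (FractionalIdeal.mem_spanSingleton _).mp hx
    refine (FractionalIdeal.mem_spanSingleton _).mpr ⟨RingOfIntegers.mapRingEquiv σ.symm a, ?_⟩
    rw [Algebra.smul_def, Algebra.smul_def, map_mul, σ.symm_apply_apply]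
    rfl

omit [NumberField M] in
theorem isImage_coe (σ : M ≃+* M) (J : Ideal (𝓞 M)) :
    IsImage σ (J : FractionalIdeal (𝓞 M)⁰ M)
      ((J.map ((RingOfIntegers.mapRingEquiv σ : 𝓞 M ≃+* 𝓞 M) : 𝓞 M →+* 𝓞 M) : Ideal (𝓞 M)) :
        FractionalIdeal (𝓞 M)⁰ M) := by
  refine ⟨fun x hx => ?_, fun x hx => ?_⟩
  · obtain ⟨a, ha, rfl⟩ := (FractionalIdeal.mem_coeIdeal _).mp hx
    exact (FractionalIdeal.mem_coeIdeal _).mpr
      ⟨RingOfIntegers.mapRingEquiv σ a, Ideal.mem_map_of_mem _ ha, rfl⟩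
  · obtain ⟨a, ha, rfl⟩ := (FractionalIdeal.mem_coeIdeal _).mp hx
    obtain ⟨y, hy, rfl⟩ := (Ideal.mem_map_iff_of_surjective
      ((RingOfIntegers.mapRingEquiv σ : 𝓞 M ≃+* 𝓞 M) : 𝓞 M →+* 𝓞 M)
      (RingOfIntegers.mapRingEquiv σ).surjective).mp ha
    exact (FractionalIdeal.mem_coeIdeal _).mpr ⟨y, hy, (σ.symm_apply_apply _).symm⟩

theorem trace_apply_ringEquiv (σ : M ≃+* M) (x : M) :
    Algebra.trace ℚ M (σ x) = Algebra.trace ℚ M x :=
  Algebra.trace_eq_of_algEquiv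
    (AlgEquiv.ofRingEquiv (f := σ) fun q => map_ratCast σ q : M ≃ₐ[ℚ] M) x

theorem nrm_spanSingleton_apply (σ : M ≃+* M) (x : M) :
    LanglandsTunnell.Geom.nrm (FractionalIdeal.spanSingleton (𝓞 M)⁰ (σ x)) =
      LanglandsTunnell.Geom.nrm (FractionalIdeal.spanSingleton (𝓞 M)⁰ x) := by
  have e : Algebra.norm ℚ (σ x) = Algebra.norm ℚ x :=
    Algebra.norm_eq_of_algEquiv
      (AlgEquiv.ofRingEquiv (f := σ) fun q => map_ratCast σ q : M ≃ₐ[ℚ] M) x
  rw [LanglandsTunnell.Geom.nrm_spanSingleton, LanglandsTunnell.Geom.nrm_spanSingleton, e]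

theorem IsImage.nrm_eq {σ : M ≃+* M} {I I' : FractionalIdeal (𝓞 M)⁰ M} (h : IsImage σ I I') :
    LanglandsTunnell.Geom.nrm I' = LanglandsTunnell.Geom.nrm I := by
  obtain ⟨a, J, -, rfl⟩ := FractionalIdeal.exists_eq_spanSingleton_mul I
  rw [h.unique ((isImage_spanSingleton σ _).mul (isImage_coe σ J)), LanglandsTunnell.Geom.nrm_mul,
    LanglandsTunnell.Geom.nrm_mul, nrm_spanSingleton_apply]
  congr 1
  simp only [LanglandsTunnell.Geom.nrm, FractionalIdeal.coeIdeal_absNorm]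
  simp only [Ideal.absNorm_apply, Submodule.cardQuot_apply]
  congr 2
  exact (Nat.card_congr (Ideal.quotientEquiv J _ (RingOfIntegers.mapRingEquiv σ) rfl).toEquiv).symm

variable {L ι : Type} [Field L] [NumberField L] [Algebra M L] [Fintype ι]

theorem isImage_diffM (T : Setting M L ι) (σ : M ≃+* M) :
    IsImage σ (T.diffM : FractionalIdeal (𝓞 M)⁰ M) (T.diffM : FractionalIdeal (𝓞 M)⁰ M) := by
  have hinv : ∀ (τ : M ≃+* M), ∀ u ∈ (T.diffM : FractionalIdeal (𝓞 M)⁰ M)⁻¹,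
      τ u ∈ (T.diffM : FractionalIdeal (𝓞 M)⁰ M)⁻¹ := by
    intro τ u hu
    rw [T.mem_inv_diffM_iff] at hu ⊢
    intro v
    obtain ⟨k, hk⟩ := hu (RingOfIntegers.mapRingEquiv τ.symm v)
    refine ⟨k, ?_⟩
    rw [← hk, ← trace_apply_ringEquiv τ
      (algebraMap (𝓞 M) M (RingOfIntegers.mapRingEquiv τ.symm v) * u), map_mul τ]
    congr 2
    exact (τ.apply_symm_apply _).symm
  have h : ∀ (τ : M ≃+* M), ∀ x ∈ (T.diffM : FractionalIdeal (𝓞 M)⁰ M),
      τ x ∈ (T.diffM : FractionalIdeal (𝓞 M)⁰ M) := by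
    intro τ x hx
    rw [← inv_inv (T.diffM : FractionalIdeal (𝓞 M)⁰ M),
      FractionalIdeal.mem_inv_iff (inv_ne_zero T.diffM_ne_zero)] at hx ⊢
    intro y hy
    obtain ⟨a, ha⟩ := (FractionalIdeal.mem_one_iff _).mp (hx _ (hinv τ.symm y hy))
    refine (FractionalIdeal.mem_one_iff _).mpr ⟨RingOfIntegers.mapRingEquiv τ a, ?_⟩
    show τ (algebraMap (𝓞 M) M a) = _
    rw [ha, map_mul, τ.apply_symm_apply]
  exact ⟨h σ, h σ.symm⟩

variable {S : SeedSys M L ι} {C : SeedChar S.T}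

theorem fracCoef_image {σ : M ≃+* M} {I I' : FractionalIdeal (𝓞 M)⁰ M} (h : IsImage σ I I')
    (hσ : ∀ m : Ideal (𝓞 M), m ≠ ⊥ → C.coef (m.map ((RingOfIntegers.mapRingEquiv σ :
      𝓞 M ≃+* 𝓞 M) : 𝓞 M →+* 𝓞 M)) = C.coef m) :
    fracCoef C I' = fracCoef C I := by
  by_cases hI : ∃ m : Ideal (𝓞 M), m ≠ ⊥ ∧ (m : FractionalIdeal (𝓞 M)⁰ M) = I
  · obtain ⟨m, hm, rfl⟩ := hI
    rw [h.unique (isImage_coe σ m), fracCoef_coe C hm, fracCoef_coe C, hσ m hm]
    exact fun e => hm ((Ideal.map_eq_bot_iff_of_injective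
      (RingOfIntegers.mapRingEquiv σ).injective).mp e)
  · have hI' : ¬ ∃ m : Ideal (𝓞 M), m ≠ ⊥ ∧ (m : FractionalIdeal (𝓞 M)⁰ M) = I' := by
      rintro ⟨m, hm, rfl⟩
      exact hI ⟨_, fun e => hm ((Ideal.map_eq_bot_iff_of_injective
        (RingOfIntegers.mapRingEquiv σ.symm).injective).mp e),
        (isImage_coe σ.symm m).unique h.symm⟩
    rw [fracCoef, fracCoef, dif_neg hI, dif_neg hI']

/-- The normalised series commutes with an automorphism of the base. -/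
theorem form_galois (hl : CharLink S C) (σ : M ≃+* M) (e : ι ≃ ι)
    (he : ∀ i, S.T.Φ.emb (e i) = (S.T.Φ.emb i).comp (σ : M →+* M))
    (hσ : ∀ m : Ideal (𝓞 M), m ≠ ⊥ → C.coef (m.map ((RingOfIntegers.mapRingEquiv σ :
      𝓞 M ≃+* 𝓞 M) : 𝓞 M →+* 𝓞 M)) = C.coef m)
    {Y Y' : FractionalIdeal (𝓞 M)⁰ M} (hY : IsImage σ Y Y') (P : ι → H3) :
    S.form Y' (fun i => P (e i)) = S.form Y P := by
  have key : ∀ β : M, seriesCoef S C Y' (σ β) * S.termW (σ β) (fun i => P (e i)) =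
      seriesCoef S C Y β * S.termW β P := by
    intro β
    congr 1
    · exact fracCoef_image (((isImage_spanSingleton σ β).mul hY).mul (isImage_diffM S.T σ)) hσ
    · rw [SeedSys.termW, SeedSys.termW, ← e.prod_comp (fun i => wfun (S.T.Φ.emb i β) (P i))]
      exact Finset.prod_congr rfl fun i _ => by rw [he]; rfl
  have h := (σ.toEquiv.hasSum_iff.mpr (hasSum_series hl Y' fun i => P (e i))).congr_fun
    fun β => (key β).symm
  rw [SeedSys.form, SeedSys.form, hY.nrm_eq, h.unique (hasSum_series hl Y P)]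

end FLTAgent.LanglandsTunnell.SeedCoeff
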