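import Fermat.Agent.LanglandsTunnell.SeedCoeff.SeriesHecke
import Fermat.Agent.LanglandsTunnell.SeedCoeff.SeriesGalois
import Fermat.Agent.LanglandsTunnell.Seed.Form
import Fermat.Agent.LanglandsTunnell.AdelicNbrs
import Fermat.Agent.LanglandsTunnell.Geom.Twist

/-!
# The automorphic function of a seed system

Every coset is `γ • diag(y, 1)`; the function `seedFun` there is the form at the ideal of `y`
transported by `γ`.  It is invariant under `GL₂` of the field (`seedFun_invariant`), a Hecke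
eigenfunction (`seedFun_hecke`) and commutes with field automorphisms (`seedFun_galois`).
-/

set_option autoImplicit false

noncomputable section

namespace FLTAgent.LanglandsTunnell.SeedCoeff

open FLTAgent.LanglandsTunnell FLTAgent.LanglandsTunnell.Seed NumberField Matrix
open FLTAgent.LanglandsTunnell.Geom
open scoped nonZeroDivisors MatrixGroups

attribute [local instance 2000] MulAction.quotient MulAction.toSemigroupAction
  SemigroupAction.toSMul
attribute [local instance 3000] H3.instSMulGeneralLinearGroupFinOfNatNatComplex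

section Adelic

variable {F : Type} [Field F] [NumberField F] {n w : Ideal (𝓞 F)}

theorem span_mul_le {x : F} {I K : FractionalIdeal (𝓞 F)⁰ F} (h : ∀ u ∈ I, x * u ∈ K) :
    FractionalIdeal.spanSingleton (𝓞 F)⁰ x * I ≤ K :=
  FractionalIdeal.mul_le.mpr fun z hz u hu => by
    obtain ⟨r, rfl⟩ := (FractionalIdeal.mem_spanSingleton _).mp hz
    rw [smul_mul_assoc]
    exact FractionalIdeal.mem_coe.mp (Submodule.smul_mem _ r (FractionalIdeal.mem_coe.mpr (h u hu)))

omit [NumberField F] in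
theorem uniformizer_mul_mem {π : (AF F)ˣ} (hπ : IsUniformizerAt n w π) {x : AF F}
    (hx : x ∈ intAF F) : (π : AF F) * x ∈ idealAF F w := by
  rw [hπ.2]
  exact ⟨x, hx, rfl⟩

omit [NumberField F] in
theorem exists_uniformizer_mul {π : (AF F)ˣ} (hπ : IsUniformizerAt n w π) {x : AF F}
    (hx : x ∈ idealAF F w) : ∃ v ∈ intAF F, (π : AF F) * v = x := by
  rw [hπ.2] at hx
  obtain ⟨v, hv, rfl⟩ := hx
  exact ⟨v, hv, rfl⟩

theorem mem_coeIdeal_of_toAF {J : Ideal (𝓞 F)} (hJ : J ≠ ⊥) {f : F}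
    (h : toAF F f ∈ idealAF F J) : f ∈ (J : FractionalIdeal (𝓞 F)⁰ F) := by
  obtain ⟨a, rfl⟩ :=
    FLTAgent.LanglandsTunnell.exists_eq_of_toAF_mem_intAF (idealAF_le_intAF h)
  exact (FractionalIdeal.mem_coeIdeal _).mpr
    ⟨a, (FLTAgent.LanglandsTunnell.toAF_mem_idealAF_iff hJ).mp h, rfl⟩

theorem ideleFrac_uniformizer {π : (AF F)ˣ} (hw : w ≠ ⊥) (hπ : IsUniformizerAt n w π) :
    ideleFrac π = (w : FractionalIdeal (𝓞 F)⁰ F) := by
  refine le_antisymm (fun c hc => ?_) (fun c hc => ?_)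
  · change c ∈ ideleFrac π at hc
    rw [mem_ideleFrac] at hc
    refine mem_coeIdeal_of_toAF hw ?_
    have h := uniformizer_mul_mem hπ hc
    rwa [mul_left_comm, Units.mul_inv, mul_one] at h
  · obtain ⟨a, ha, rfl⟩ := (FractionalIdeal.mem_coeIdeal _).mp hc
    show algebraMap (𝓞 F) F a ∈ ideleFrac π
    rw [mem_ideleFrac]
    obtain ⟨v, hv, e⟩ :=
      exists_uniformizer_mul hπ (FLTAgent.LanglandsTunnell.toAF_mem_idealAF ha)
    rw [show toAF F (algebraMap (𝓞 F) F a) = (π : AF F) * v from e.symm, mul_comm (π : AF F) v,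
      mul_assoc, Units.mul_inv, mul_one]
    exact hv

theorem exists_translation (hn : n ≠ ⊥) (x : AF F) (u : (AF F)ˣ) :
    ∃ κ : F, (x - toAF F κ) * (u⁻¹ : (AF F)ˣ) ∈ idealAF F n := by
  obtain ⟨N, hN, hNu⟩ :=
    FLTAgent.LanglandsTunnell.exists_natCast_mul_mem_intAF ((u⁻¹ : (AF F)ˣ) : AF F)
  obtain ⟨κ, hκ⟩ := FLTAgent.LanglandsTunnell.exists_sub_mem_idealAF
    (n := Ideal.span {(N : 𝓞 F)} * n) (mul_ne_zero (by simpa using hN) hn) x
  refine ⟨κ, ?_⟩
  obtain ⟨v, hv, e⟩ := idealAF_span_natCast_mul hκ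
  rw [e, mul_right_comm]
  exact FLTAgent.LanglandsTunnell.mul_mem_idealAF_left hNu hv

theorem mapAF_symm_apply (σ : F ≃+* F) (x : AF F) :
    mapAF (σ.symm : F →+* F) (mapAF (σ : F →+* F) x) = x := by
  induction x using TensorProduct.induction_on with
  | zero => simp
  | tmul a z => rw [mapAF_tmul, mapAF_tmul]; simp
  | add a b ha hb => rw [map_add, map_add, ha, hb]

theorem isImage_ideleFrac (σ : F ≃+* F) (y : (AF F)ˣ) :
    IsImage σ (ideleFrac y)
      (ideleFrac (Units.map ((mapAF (σ : F →+* F)).toRingHom : AF F →* AF F) y)) := by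
  set y' := Units.map ((mapAF (σ : F →+* F)).toRingHom : AF F →* AF F) y with hy'
  have hinv : ((y'⁻¹ : (AF F)ˣ) : AF F) = mapAF (σ : F →+* F) ((y⁻¹ : (AF F)ˣ) : AF F) := by
    rw [hy', ← map_inv]
    rfl
  refine ⟨fun x hx => ?_, fun x hx => ?_⟩
  · rw [mem_ideleFrac] at hx ⊢
    have h := FLTAgent.LanglandsTunnell.mapAF_mem_intAF (σ : F →+* F) hx
    rw [map_mul, FLTAgent.LanglandsTunnell.mapAF_toAF] at h
    rw [hinv]
    exact h
  · rw [mem_ideleFrac] at hx ⊢
    have h := FLTAgent.LanglandsTunnell.mapAF_mem_intAF (σ.symm : F →+* F) hx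
    rw [map_mul, FLTAgent.LanglandsTunnell.mapAF_toAF, hinv, mapAF_symm_apply] at h
    exact h

theorem exists_scalar_of_mem_center {R : Type} [CommRing R] {z : GL (Fin 2) R}
    (hz : z ∈ Subgroup.center (GL (Fin 2) R)) :
    ∃ u : Rˣ, z = GeneralLinearGroup.scalar (Fin 2) u := by
  rw [GeneralLinearGroup.center_eq_range_scalar] at hz
  obtain ⟨u, rfl⟩ := hz
  exact ⟨u, rfl⟩

theorem scalar_mem_center {R : Type} [CommRing R] (u : Rˣ) :
    GeneralLinearGroup.scalar (Fin 2) u ∈ Subgroup.center (GL (Fin 2) R) := by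
  rw [GeneralLinearGroup.center_eq_range_scalar]
  exact ⟨u, rfl⟩

end Adelic

variable {M L ι : Type} [Field M] [NumberField M] [Field L] [NumberField L] [Algebra M L]
  [Fintype ι] (S : SeedSys M L ι)

/-- Two diagonal representatives of one coset give the same value. -/
theorem form_eq_of_smul {η : GL (Fin 2) M} {y y' : (AF M)ˣ}
    (h : GeneralLinearGroup.map (toAF M) η • ((diagUnit y : GL (Fin 2) (AF M)) : FinPt M S.n) =
      ((diagUnit y' : GL (Fin 2) (AF M)) : FinPt M S.n)) (Q : ι → H3) :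
    S.form (ideleFrac y') (fun i => GeneralLinearGroup.map (S.T.Φ.emb i) η • Q i) =
      S.form (ideleFrac y) Q := by
  have hmem := QuotientGroup.eq.mp h.symm
  simp only [smul_eq_mul] at hmem
  obtain ⟨k, hk, z, hz, hkz⟩ := Subgroup.mem_sup_of_normal_right.mp hmem
  obtain ⟨ζ, rfl⟩ := exists_scalar_of_mem_center hz
  obtain ⟨f, Z, t, hZ0, -, ht, rfl⟩ := exists_eq_toAF_mul S.n_ne ζ
  set η₁ : GL (Fin 2) M := GeneralLinearGroup.scalar (Fin 2) f⁻¹ * η with hη₁
  have hmain : GeneralLinearGroup.map (toAF M) η₁ * diagUnit y =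
      diagUnit y' * k * GeneralLinearGroup.scalar (Fin 2) t := by
    have hc := Subgroup.mem_center_iff.mp (scalar_mem_center
      (Units.map (toAF M : M →* AF M) f⁻¹))
    rw [hη₁, map_mul, map_scalar_two, mul_assoc,
      show GeneralLinearGroup.map (toAF M) η * diagUnit y =
        diagUnit y' * (k * GeneralLinearGroup.scalar (Fin 2)
          (Units.map (toAF M : M →* AF M) f * t)) by
        rw [hkz]; group,
      ← mul_assoc, show Units.map ((toAF M).toMonoidHom) f⁻¹ =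
        Units.map (toAF M : M →* AF M) f⁻¹ from rfl,
      ← hc (diagUnit y'), mul_assoc (diagUnit y'), ← mul_assoc _ k, ← hc k, mul_assoc k,
      ← map_mul, ← mul_assoc, map_inv, inv_mul_cancel_left]
  have ent : ∀ i j, (GeneralLinearGroup.map (toAF M) η₁ * diagUnit y).1 i j =
      (diagUnit y' * k * GeneralLinearGroup.scalar (Fin 2) t).1 i j := fun i j => by rw [hmain]
  have e00 : toAF M (η₁.1 0 0) * (y : AF M) = (y' : AF M) * k.1 0 0 * (t : AF M) := by
    simpa [diagUnit, Matrix.mul_apply, Matrix.vecMul, dotProduct, Fin.sum_univ_two] using ent 0 0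
  have e01 : toAF M (η₁.1 0 1) = (y' : AF M) * k.1 0 1 * (t : AF M) := by
    simpa [diagUnit, Matrix.mul_apply, Matrix.vecMul, dotProduct, Fin.sum_univ_two] using ent 0 1
  have e10 : toAF M (η₁.1 1 0) * (y : AF M) = k.1 1 0 * (t : AF M) := by
    simpa [diagUnit, Matrix.mul_apply, Matrix.vecMul, dotProduct, Fin.sum_univ_two] using ent 1 0
  have e11 : toAF M (η₁.1 1 1) = k.1 1 1 * (t : AF M) := by
    simpa [diagUnit, Matrix.mul_apply, Matrix.vecMul, dotProduct, Fin.sum_univ_two] using ent 1 1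
  set a := η₁.1 0 0
  set b := η₁.1 0 1
  set c := η₁.1 1 0
  have hkint : ∀ i j, k.1 i j ∈ intAF M := fun i j => hk.1.mem_intAF i j
  have hkint' : ∀ i j, (k⁻¹).1 i j ∈ intAF M := fun i j => hk.2.mem_intAF i j
  set δ : (AF M)ˣ := GeneralLinearGroup.det k with hδ
  have hδval : (δ : AF M) = k.1 0 0 * k.1 1 1 - k.1 0 1 * k.1 1 0 := by
    rw [hδ, GeneralLinearGroup.val_det_apply, Matrix.det_fin_two]
  have hδint : (δ : AF M) ∈ intAF M := by
    rw [hδval]
    exact sub_mem (mul_mem (hkint 0 0) (hkint 1 1)) (mul_mem (hkint 0 1) (hkint 1 0))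
  have hδint' : ((δ⁻¹ : (AF M)ˣ) : AF M) ∈ intAF M := by
    rw [hδ, ← map_inv, GeneralLinearGroup.val_det_apply, Matrix.det_fin_two]
    exact sub_mem (mul_mem (hkint' 0 0) (hkint' 1 1)) (mul_mem (hkint' 0 1) (hkint' 1 0))
  have hd_int : toAF M (η₁.1 1 1) ∈ idealAF M Z := by
    rw [e11, mul_comm]; exact uniformizer_mul_mem ht (hkint 1 1)
  obtain ⟨d, hd⟩ :=
    FLTAgent.LanglandsTunnell.exists_eq_of_toAF_mem_intAF (idealAF_le_intAF hd_int)
  have hdZ : d ∈ Z :=
    (FLTAgent.LanglandsTunnell.toAF_mem_idealAF_iff hZ0).mp (hd ▸ hd_int)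
  have hd1 : d - 1 ∈ S.n := by
    refine (FLTAgent.LanglandsTunnell.toAF_mem_idealAF_iff S.n_ne).mp ?_
    have e : toAF M ((d - 1 : 𝓞 M) : M) =
        k.1 1 1 * ((t : AF M) - 1) + (k.1 - 1 : Matrix (Fin 2) (Fin 2) (AF M)) 1 1 := by
      rw [RingOfIntegers.coe_eq_algebraMap, map_sub, map_one, ← RingOfIntegers.coe_eq_algebraMap,
        hd, map_sub, map_one, e11]
      simp
      ring
    rw [e]
    exact add_mem (FLTAgent.LanglandsTunnell.mul_mem_idealAF_left (hkint 1 1) ht.1) (hk.1 1 1)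
  set Dd : M := a * (d : M) - b * c with hDd
  have hdet : toAF M Dd * (y : AF M) = (y' : AF M) * ((t : AF M) * (t : AF M)) * (δ : AF M) := by
    rw [hDd, hd, map_sub, map_mul, map_mul, e11, e01, hδval]
    linear_combination (k.1 1 1 * (t : AF M)) * e00 - ((y' : AF M) * k.1 0 1 * (t : AF M)) * e10
  have hD : Dd ≠ 0 := by
    rw [hDd, hd]
    have h0 := (Matrix.GeneralLinearGroup.det η₁).ne_zero
    rwa [GeneralLinearGroup.val_det_apply, Matrix.det_fin_two] at h0
  have hIt : ideleFrac t = (Z : FractionalIdeal (𝓞 M)⁰ M) := ideleFrac_uniformizer hZ0 ht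
  have hI : FractionalIdeal.spanSingleton (𝓞 M)⁰ Dd * ideleFrac y =
      ideleFrac y' * (Z : FractionalIdeal (𝓞 M)⁰ M) ^ 2 := by
    have e : Units.map (toAF M : M →* AF M) (Units.mk0 Dd hD) * y = y' * (t * t) * δ :=
      Units.ext hdet
    have h1 := congrArg ideleFrac e
    rw [ideleFrac_mul, ideleFrac_mul, ideleFrac_mul, ideleFrac_mul, ideleFrac_toAF, hIt,
      ideleFrac_eq_one hδint hδint', mul_one, ← sq] at h1
    exact h1
  have hY : ideleFrac y' * (FractionalIdeal.spanSingleton (𝓞 M)⁰ Dd)⁻¹ =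
      ideleFrac y * ((Z : FractionalIdeal (𝓞 M)⁰ M) ^ 2)⁻¹ := by
    have hs : FractionalIdeal.spanSingleton (𝓞 M)⁰ Dd ≠ 0 :=
      FractionalIdeal.spanSingleton_ne_zero_iff.mpr hD
    have hZ2 : (Z : FractionalIdeal (𝓞 M)⁰ M) ^ 2 ≠ 0 :=
      pow_ne_zero 2 (FractionalIdeal.coeIdeal_ne_zero.mpr hZ0)
    rw [← div_eq_mul_inv, ← div_eq_mul_inv, div_eq_div_iff hs hZ2, ← hI, mul_comm]
  have hda : toAF M (a / Dd) * (t : AF M) * (δ : AF M) = k.1 0 0 := by
    refine (y'.isUnit.mul t.isUnit).mul_left_cancel ?_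
    calc (y' : AF M) * (t : AF M) * (toAF M (a / Dd) * (t : AF M) * (δ : AF M))
        = toAF M (a / Dd) * ((y' : AF M) * ((t : AF M) * (t : AF M)) * (δ : AF M)) := by ring
      _ = toAF M a * (y : AF M) := by rw [← hdet, ← mul_assoc, ← map_mul, div_mul_cancel₀ _ hD]
      _ = _ := by rw [e00]; ring
  have hdb : toAF M (b / Dd) * (t : AF M) * (δ : AF M) = k.1 0 1 * (y : AF M) := by
    refine (y'.isUnit.mul t.isUnit).mul_left_cancel ?_
    calc (y' : AF M) * (t : AF M) * (toAF M (b / Dd) * (t : AF M) * (δ : AF M))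
        = toAF M (b / Dd) * ((y' : AF M) * ((t : AF M) * (t : AF M)) * (δ : AF M)) := by ring
      _ = toAF M b * (y : AF M) := by rw [← hdet, ← mul_assoc, ← map_mul, div_mul_cancel₀ _ hD]
      _ = _ := by rw [e01]; ring
  have hZmem : ∀ u ∈ (Z : FractionalIdeal (𝓞 M)⁰ M),
      ∃ v ∈ intAF M, (t : AF M) * v = toAF M u := by
    intro u hu
    obtain ⟨u₀, hu₀, rfl⟩ := (FractionalIdeal.mem_coeIdeal _).mp hu
    exact exists_uniformizer_mul ht (FLTAgent.LanglandsTunnell.toAF_mem_idealAF hu₀)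
  have ha : FractionalIdeal.spanSingleton (𝓞 M)⁰ (a / Dd) * (Z : FractionalIdeal (𝓞 M)⁰ M) ≤ 1 := by
    refine span_mul_le fun u hu => ?_
    obtain ⟨v, hv, hvu⟩ := hZmem u hu
    obtain ⟨r, hr⟩ := FLTAgent.LanglandsTunnell.exists_eq_of_toAF_mem_intAF
      (f := a / Dd * u) (by
        rw [map_mul, ← hvu, ← mul_assoc,
          ← Units.mul_inv_cancel_right (toAF M (a / Dd) * (t : AF M)) δ, hda]
        exact mul_mem (mul_mem (hkint 0 0) hδint') hv)
    exact (FractionalIdeal.mem_one_iff _).mpr ⟨r, hr⟩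
  have hb : FractionalIdeal.spanSingleton (𝓞 M)⁰ (b / Dd) * (Z : FractionalIdeal (𝓞 M)⁰ M) ≤
      ideleFrac y := by
    refine span_mul_le fun u hu => ?_
    obtain ⟨v, hv, hvu⟩ := hZmem u hu
    rw [mem_ideleFrac, map_mul, ← hvu, ← mul_assoc,
      ← Units.mul_inv_cancel_right (toAF M (b / Dd) * (t : AF M)) δ, hdb,
      show k.1 0 1 * (y : AF M) * ((δ⁻¹ : (AF M)ˣ) : AF M) * v * ((y⁻¹ : (AF M)ˣ) : AF M) =
        k.1 0 1 * ((δ⁻¹ : (AF M)ˣ) : AF M) * v * ((y : AF M) * ((y⁻¹ : (AF M)ˣ) : AF M)) by ring,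
      Units.mul_inv, mul_one]
    exact mul_mem (mul_mem (hkint 0 1) hδint') hv
  have hc : FractionalIdeal.spanSingleton (𝓞 M)⁰ c * ideleFrac y ≤
      (S.n : FractionalIdeal (𝓞 M)⁰ M) * (Z : FractionalIdeal (𝓞 M)⁰ M) := by
    refine span_mul_le fun u hu => ?_
    rw [mem_ideleFrac] at hu
    rw [← FractionalIdeal.coeIdeal_mul]
    refine mem_coeIdeal_of_toAF (mul_ne_zero S.n_ne hZ0) ?_
    rw [show toAF M (c * u) = k.1 1 0 * ((t : AF M) * (toAF M u * ((y⁻¹ : (AF M)ˣ) : AF M))) by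
      rw [map_mul, ← mul_assoc (k.1 1 0), ← e10]
      linear_combination -(toAF M c * toAF M u) * y.mul_inv]
    refine FLTAgent.LanglandsTunnell.mul_mem_idealAF ?_ (uniformizer_mul_mem ht hu)
    simpa using hk.1 1 0
  let g : ι → GL (Fin 2) ℂ := fun i => GeneralLinearGroup.mkOfDetNeZero
    !![S.T.Φ.emb i (a / Dd), S.T.Φ.emb i (b / Dd); S.T.Φ.emb i c, S.T.Φ.emb i (d : M)] (by
      rw [Matrix.det_fin_two_of, ← map_mul, ← map_mul, ← map_sub, map_ne_zero,
        div_mul_eq_mul_div, div_mul_eq_mul_div, ← sub_div, ← hDd, div_self hD]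
      exact one_ne_zero)
  have hsplit : ∀ i, GeneralLinearGroup.map (S.T.Φ.emb i) η • Q i =
      affineGL (Units.mk0 _ ((map_ne_zero (S.T.Φ.emb i)).mpr hD)) 0 • (g i • Q i) := by
    intro i
    have e1 : GeneralLinearGroup.map (S.T.Φ.emb i) η • Q i =
        GeneralLinearGroup.map (S.T.Φ.emb i) η₁ • Q i := by
      rw [hη₁, map_mul, mul_smul, map_scalar_two, scalar_smul_h3]
    rw [e1, ← mul_smul]
    congr 1
    refine Units.ext (Matrix.ext fun r s => ?_)
    fin_cases r <;> fin_cases s <;>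
      simp [g, affineGL, GeneralLinearGroup.val_mkOfDetNeZero, Matrix.mul_apply, Fin.sum_univ_two,
        a, b, c, hd, map_div₀, mul_div_cancel₀, (map_ne_zero (S.T.Φ.emb i)).mpr hD]
  rw [S.form_dilate (Y := ideleFrac y') hD (P := fun i => g i • Q i)
    (Q := fun i => GeneralLinearGroup.map (S.T.Φ.emb i) η • Q i)
    (fun i => by rw [hsplit, affineGL_smul_z, add_zero]; rfl)
    (fun i => by rw [hsplit, affineGL_smul_t]; rfl), hY]
  refine S.form_move (ideleFrac_ne_zero y) hZ0 (a := a / Dd) (b := b / Dd) (c := c) ?_ hd1 hdZ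
    ha hb hc g (fun i => GeneralLinearGroup.val_mkOfDetNeZero _ _) Q
  rw [div_mul_eq_mul_div, div_mul_eq_mul_div, ← sub_div]
  exact div_self hD

theorem exists_seed_rep (v : FinPt M S.n) : ∃ (γ : GL (Fin 2) M) (y : (AF M)ˣ),
    v = GeneralLinearGroup.map (toAF M) γ • ((diagUnit y : GL (Fin 2) (AF M)) : FinPt M S.n) := by
  obtain ⟨γ, J, t, -, -, -, h⟩ := exists_smul_diagUnit S.n_ne v
  exact ⟨γ, t, h⟩

/-- The automorphic function of the seed. -/
def seedFun (x : Pt M ι S.n) : ℂ :=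
  S.form (ideleFrac (exists_seed_rep S x.1).choose_spec.choose)
    (fun i => (GeneralLinearGroup.map (S.T.Φ.emb i) (exists_seed_rep S x.1).choose)⁻¹ • x.2 i)

/-- The value at any representative. -/
theorem seedFun_eval (γ : GL (Fin 2) M) (y : (AF M)ˣ) (P : ι → H3) :
    seedFun S (GeneralLinearGroup.map (toAF M) γ •
        ((diagUnit y : GL (Fin 2) (AF M)) : FinPt M S.n), P) =
      S.form (ideleFrac y) (fun i => (GeneralLinearGroup.map (S.T.Φ.emb i) γ)⁻¹ • P i) := by
  set v := GeneralLinearGroup.map (toAF M) γ •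
    ((diagUnit y : GL (Fin 2) (AF M)) : FinPt M S.n) with hv
  set γ₀ := (exists_seed_rep S v).choose
  set y₀ := (exists_seed_rep S v).choose_spec.choose
  have h₀ : v = GeneralLinearGroup.map (toAF M) γ₀ •
      ((diagUnit y₀ : GL (Fin 2) (AF M)) : FinPt M S.n) :=
    (exists_seed_rep S v).choose_spec.choose_spec
  show S.form (ideleFrac y₀) (fun i => (GeneralLinearGroup.map (S.T.Φ.emb i) γ₀)⁻¹ • P i) = _
  have h : GeneralLinearGroup.map (toAF M) (γ₀⁻¹ * γ) •
      ((diagUnit y : GL (Fin 2) (AF M)) : FinPt M S.n) =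
      ((diagUnit y₀ : GL (Fin 2) (AF M)) : FinPt M S.n) := by
    rw [map_mul, mul_smul, ← hv, h₀, map_inv, inv_smul_smul]
  rw [← form_eq_of_smul S h fun i => (GeneralLinearGroup.map (S.T.Φ.emb i) γ)⁻¹ • P i]
  refine congrArg (S.form _) (funext fun i => ?_)
  rw [map_mul, map_inv, mul_smul, smul_inv_smul]

theorem seedFun_invariant (γ : GL (Fin 2) M) (x : Pt M ι S.n) :
    seedFun S (act S.T.Φ γ x) = seedFun S x := by
  obtain ⟨v, P⟩ := x
  obtain ⟨γ₀, y, rfl⟩ := exists_seed_rep S v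
  rw [seedFun_eval, show act S.T.Φ γ (GeneralLinearGroup.map (toAF M) γ₀ •
      ((diagUnit y : GL (Fin 2) (AF M)) : FinPt M S.n), P) =
      (GeneralLinearGroup.map (toAF M) (γ * γ₀) • ((diagUnit y : GL (Fin 2) (AF M)) : FinPt M S.n),
        fun i => GeneralLinearGroup.map (S.T.Φ.emb i) γ • P i) by
    rw [map_mul, mul_smul]; rfl, seedFun_eval]
  refine congrArg (S.form _) (funext fun i => ?_)
  rw [map_mul, _root_.mul_inv_rev, mul_smul, inv_smul_smul]

variable {S} {C : SeedChar S.T}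

theorem seedFun_hecke (hl : CharLink S C) {w : Ideal (𝓞 M)} (hw : w.IsPrime) (hw0 : w ≠ ⊥)
    (hwn : ¬ w ∣ S.n) (hws : w ⊔ C.s = ⊤) : HeckeEigen (seedFun S) w (C.a w) := by
  intro v P
  obtain ⟨γ, y, rfl⟩ := exists_seed_rep S v
  obtain ⟨π, hπ⟩ := exists_isUniformizerAt_prime (n := S.n) hw hw0 hwn
  have hwm := hw.isMaximal hw0
  have hcop : w ⊔ S.n = ⊤ := by
    by_contra h
    exact hwn (Ideal.dvd_iff_le.mpr (le_sup_right.trans (hwm.eq_of_le h le_sup_left).ge))
  obtain ⟨c, hc⟩ := exists_isResidueSection (n := S.n) hw0 hcop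
  have : Finite (𝓞 M ⧸ w) := Ideal.finiteQuotientOfFreeOfNeBot w hw0
  have : Fintype (𝓞 M ⧸ w) := Fintype.ofFinite _
  choose κ hκ using fun r => exists_translation (n := S.n) S.n_ne ((y : AF M) * c r) (y * π)
  set G := GeneralLinearGroup.map (toAF M) γ * diagUnit y with hG
  have hsum := finsum_nbrs (n := S.n) hw hw0 hwn hπ hc G
    (κ := 1) (one_mem _) (fun v' => seedFun S (v', P))
  simp only [mul_one] at hsum
  refine hsum.trans ?_
  rw [Fintype.sum_option]
  have hnone : ((G * hRep π c none : GL (Fin 2) (AF M)) : FinPt M S.n) =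
      GeneralLinearGroup.map (toAF M) γ •
        ((diagUnit (y * π⁻¹) : GL (Fin 2) (AF M)) : FinPt M S.n) := by
    rw [MulAction.Quotient.smul_coe, smul_eq_mul,
      show G * hRep π c none =
        GeneralLinearGroup.map (toAF M) γ * diagUnit (y * π⁻¹) *
          GeneralLinearGroup.scalar (Fin 2) π by
        rw [hG, mul_assoc, mul_assoc]
        congr 1
        refine Units.ext (Matrix.ext fun i j => ?_)
        fin_cases i <;> fin_cases j <;>
          simp [hRep, diagUnit, Matrix.mul_apply, Fin.sum_univ_two]]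
    exact QuotientGroup.mk_mul_of_mem _ (Subgroup.mem_sup_right (scalar_mem_center π))
  have hsome : ∀ r, ((G * hRep π c (some r) : GL (Fin 2) (AF M)) : FinPt M S.n) =
      GeneralLinearGroup.map (toAF M) (γ * affineGL 1 (κ r)) •
        ((diagUnit (y * π) : GL (Fin 2) (AF M)) : FinPt M S.n) := by
    intro r
    set x := ((y : AF M) * c r - toAF M (κ r)) * (((y * π)⁻¹ : (AF M)ˣ) : AF M) with hx
    have hxe : ((y * π : (AF M)ˣ) : AF M) * x = (y : AF M) * c r - toAF M (κ r) := by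
      rw [hx, mul_left_comm, Units.mul_inv, mul_one]
    rw [MulAction.Quotient.smul_coe, smul_eq_mul,
      show G * hRep π c (some r) =
        GeneralLinearGroup.map (toAF M) (γ * affineGL 1 (κ r)) * diagUnit (y * π) * upperUnip x by
        rw [hG, map_mul, affineGL_map, mul_assoc, mul_assoc, mul_assoc]
        congr 1
        refine Units.ext (Matrix.ext fun i j => ?_)
        rw [Units.val_mul, hRep_some_val]
        fin_cases i <;> fin_cases j <;>
          simp [diagUnit, affineGL, upperUnip, Matrix.mul_apply, Fin.sum_univ_two]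
        rw [Units.val_mul] at hxe
        linear_combination -hxe]
    exact QuotientGroup.mk_mul_of_mem _
      (Subgroup.mem_sup_left (upperUnip_mem_principal (hκ r)))
  rw [hnone, seedFun_eval, ideleFrac_mul,
    show ideleFrac π⁻¹ = (w : FractionalIdeal (𝓞 M)⁰ M)⁻¹ from eq_inv_of_mul_eq_one_right
      (by rw [← ideleFrac_uniformizer hw0 hπ, ideleFrac_mul_inv]), seedFun_eval]
  simp only [hsome, seedFun_eval, ideleFrac_mul, ideleFrac_uniformizer hw0 hπ]
  rw [add_comm]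
  have hi0 : ∀ r, toAF M (κ r) * ((y⁻¹ : (AF M)ˣ) : AF M) - c r ∈ idealAF M w := by
    intro r
    have h := uniformizer_mul_mem hπ (idealAF_le_intAF (neg_mem (hκ r)))
    rw [_root_.mul_inv_rev, Units.val_mul, show (π : AF M) * -(((y : AF M) * c r - toAF M (κ r)) *
      (((π⁻¹ : (AF M)ˣ) : AF M) * ((y⁻¹ : (AF M)ˣ) : AF M))) =
      ((π : AF M) * ((π⁻¹ : (AF M)ˣ) : AF M)) * (toAF M (κ r) * ((y⁻¹ : (AF M)ˣ) : AF M) -
        ((y : AF M) * ((y⁻¹ : (AF M)ˣ) : AF M)) * c r) by ring, Units.mul_inv, Units.mul_inv,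
      one_mul, one_mul] at h
    exact h
  have hmw : ∀ x ∈ ideleFrac y * (w : FractionalIdeal (𝓞 M)⁰ M),
      toAF M x * ((y⁻¹ : (AF M)ˣ) : AF M) ∈ idealAF M w := by
    intro x hx
    rw [← ideleFrac_uniformizer hw0 hπ, ← ideleFrac_mul, mem_ideleFrac] at hx
    have h := uniformizer_mul_mem hπ hx
    rwa [_root_.mul_inv_rev, Units.val_mul, show (π : AF M) * (toAF M x *
        (((π⁻¹ : (AF M)ˣ) : AF M) * ((y⁻¹ : (AF M)ˣ) : AF M))) =
      ((π : AF M) * ((π⁻¹ : (AF M)ˣ) : AF M)) *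
        (toAF M x * ((y⁻¹ : (AF M)ˣ) : AF M)) by ring, Units.mul_inv, one_mul] at h
  refine form_hecke hl hwm hws (ideleFrac y) ?_ κ ?_ ?_ ?_ _ _ ?_ ?_
  · rw [Ideal.absNorm_apply, Submodule.cardQuot_apply, Nat.card_eq_fintype_card]
  · intro r
    rw [mem_ideleFrac]
    have h := add_mem (idealAF_le_intAF (hi0 r)) (idealAF_le_intAF (hc.mem r))
    simp only [sub_add_cancel] at h
    exact h
  · intro r r' h
    obtain ⟨r₀, -, huniq⟩ := hc.exists_unique (c r') (idealAF_le_intAF (hc.mem r'))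
    have h1 := hmw _ h
    rw [map_sub, sub_mul] at h1
    have h2 := sub_mem (sub_mem (hi0 r) (hi0 r')) h1
    rw [show toAF M (κ r) * ((y⁻¹ : (AF M)ˣ) : AF M) - c r -
      (toAF M (κ r') * ((y⁻¹ : (AF M)ˣ) : AF M) - c r') -
      (toAF M (κ r) * ((y⁻¹ : (AF M)ˣ) : AF M) - toAF M (κ r') * ((y⁻¹ : (AF M)ˣ) : AF M)) =
      c r' - c r by ring] at h2
    exact (huniq r h2).trans (huniq r' (by simp)).symm
  · intro x hx
    rw [mem_ideleFrac] at hx
    obtain ⟨r, hr, -⟩ := hc.exists_unique _ hx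
    refine ⟨r, ?_⟩
    rw [← ideleFrac_uniformizer hw0 hπ, ← ideleFrac_mul, mem_ideleFrac]
    have h1 := sub_mem hr (hi0 r)
    obtain ⟨v, hv, e⟩ := exists_uniformizer_mul hπ h1
    rw [_root_.mul_inv_rev, Units.val_mul, show toAF M (x - κ r) * (((π⁻¹ : (AF M)ˣ) : AF M) *
      ((y⁻¹ : (AF M)ˣ) : AF M)) = ((π⁻¹ : (AF M)ˣ) : AF M) *
        (toAF M x * ((y⁻¹ : (AF M)ˣ) : AF M) - c r -
          (toAF M (κ r) * ((y⁻¹ : (AF M)ˣ) : AF M) - c r)) by rw [map_sub]; ring, ← e,
      Units.inv_mul_cancel_left]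
    exact hv
  · intro r i
    show (_ : H3).z = _
    rw [map_mul, _root_.mul_inv_rev, mul_smul, affineGL_map, map_one]
    rw [show ∀ b : ℂ, (affineGL (1 : ℂˣ) b)⁻¹ = affineGL 1 (-b) from fun b => Units.ext (by
      show (affineGL (1 : ℂˣ) b).inv = _
      ext i j; fin_cases i <;> fin_cases j <;> simp [affineGL])]
    rw [affineGL_smul_z, Units.val_one, one_mul, sub_eq_add_neg]
  · intro r i
    show (_ : H3).t = _
    rw [map_mul, _root_.mul_inv_rev, mul_smul, affineGL_map, map_one]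
    rw [show ∀ b : ℂ, (affineGL (1 : ℂˣ) b)⁻¹ = affineGL 1 (-b) from fun b => Units.ext (by
      show (affineGL (1 : ℂˣ) b).inv = _
      ext i j; fin_cases i <;> fin_cases j <;> simp [affineGL])]
    rw [affineGL_smul_t, Units.val_one, norm_one, one_mul]

/-- Invariance under an automorphism of the base field. -/
theorem seedFun_galois (hl : CharLink S C) (σ : M ≃+* M) (e : ι ≃ ι)
    (he : ∀ i, S.T.Φ.emb (e i) = (S.T.Φ.emb i).comp (σ : M →+* M))
    (hn : S.n.map (RingOfIntegers.mapRingHom (σ : M →+* M)) ≤ S.n)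
    (hσ : ∀ m : Ideal (𝓞 M), m ≠ ⊥ → C.coef (m.map ((RingOfIntegers.mapRingEquiv σ :
      𝓞 M ≃+* 𝓞 M) : 𝓞 M →+* 𝓞 M)) = C.coef m)
    (g : GL (Fin 2) (AF M)) (Q : ι → H3) :
    seedFun S ((GeneralLinearGroup.map (mapAF (σ : M →+* M)).toRingHom g : FinPt M S.n),
        fun i => Q (e i)) = seedFun S ((g : FinPt M S.n), Q) := by
  obtain ⟨γ, y, hv⟩ := exists_seed_rep S (g : FinPt M S.n)
  rw [hv, seedFun_eval]
  have hmem := map_mem_levelGroup (σ : M →+* M) hn (QuotientGroup.eq.mp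
    (hv.trans (MulAction.Quotient.smul_coe _ _ _)))
  rw [map_mul, map_inv, smul_eq_mul, map_mul, map_toAF_comm, map_diagUnit] at hmem
  rw [show ((GeneralLinearGroup.map (mapAF (σ : M →+* M)).toRingHom g : GL (Fin 2) (AF M)) :
      FinPt M S.n) = GeneralLinearGroup.map (toAF M) (GeneralLinearGroup.map (σ : M →+* M) γ) •
        ((diagUnit (Units.map ((mapAF (σ : M →+* M)).toRingHom : AF M →* AF M) y) :
          GL (Fin 2) (AF M)) : FinPt M S.n) by
    rw [MulAction.Quotient.smul_coe, smul_eq_mul, QuotientGroup.eq]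
    exact hmem, seedFun_eval,
    ← form_galois hl σ e he hσ (isImage_ideleFrac σ y)
      (fun i => (GeneralLinearGroup.map (S.T.Φ.emb i) γ)⁻¹ • Q i)]
  refine congrArg (S.form _) (funext fun i => ?_)
  rw [he]
  rfl

end FLTAgent.LanglandsTunnell.SeedCoeff
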