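import Fermat.Agent.LanglandsTunnell.SeedCoeff.Local
import Fermat.Agent.LanglandsTunnell.SeedCoeff.Coefficient

/-!
# The character of the seed from reciprocity

`exists_seedChar` transports the character of order four of the Galois group of `L` through
reciprocity, with eigenvalues `seedEigen`; `exists_level` chooses a level and `coef_seed_map`
gives the invariance of the coefficients under the automorphisms of `M`.  These feed
`LanglandsTunnell.SeedCoeff.Adapter`.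
-/

set_option autoImplicit false

noncomputable section

namespace FLTAgent.LanglandsTunnell.SeedCoeff

open FLTAgent.LanglandsTunnell FLTAgent.LanglandsTunnell.Seed NumberField
open FLTAgent.LanglandsTunnell.CFT (PlaceOver)

variable {D : Datum} (P : ExtPlaces D)

variable (D) in
/-- The character of the Galois group of `L`. -/
def seedChi : (fieldL D).fixingSubgroup →* ℂˣ :=
  chiQuartic.comp ((D.ρ.comp (fieldL D).fixingSubgroup.subtype).codRestrict quarticSubgroup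
    fun g => by
      have h : (g : GQ) ∈ galL D := fixingSubgroup_fieldL D ▸ g.2
      exact h)

variable (D) in
theorem coe_seedChi (g : (fieldL D).fixingSubgroup) :
    (seedChi D g : ℂ) = chiFun (D.ρ (g : GQ)) := rfl

theorem sup_span_natCast_eq_top {R : Type} [CommRing R] {I : Ideal R} {q s : ℕ}
    (hq : (q : R) ∈ I) (h : q.Coprime s) : I ⊔ Ideal.span {(s : R)} = ⊤ := by
  obtain ⟨u, v, huv⟩ : IsCoprime (q : ℤ) (s : ℤ) := Nat.isCoprime_iff_coprime.mpr h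
  refine (Ideal.eq_top_iff_one _).mpr ?_
  have h' := congrArg (Int.cast : ℤ → R) huv
  push_cast at h'
  rw [← h']
  exact add_mem (Ideal.mem_sup_left (Ideal.mul_mem_left _ _ hq))
    (Ideal.mem_sup_right (Ideal.mul_mem_left _ _ (Ideal.mem_span_singleton_self _)))

theorem sup_eq_top_of_sup_pow {R : Type} [CommRing R] {I S : Ideal R} {e : ℕ}
    (h : I ⊔ S ^ (e + 1) = ⊤) : I ⊔ S = ⊤ :=
  top_le_iff.mp (h ▸ sup_le_sup_left (Ideal.pow_le_self e.succ_ne_zero) I)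

theorem primeTo_pow {M L ι : Type} [Field M] [NumberField M] [Field L] [NumberField L]
    [Algebra M L] [Fintype ι] {T : Setting M L ι} {s : Ideal (𝓞 M)} {Q : Ideal (𝓞 L)} (e : ℕ) :
    PrimeTo T (s ^ (e + 1)) Q ↔ PrimeTo T s Q := by
  rw [PrimeTo, PrimeTo, upI, Ideal.map_pow]
  exact ⟨sup_eq_top_of_sup_pow, fun h => Ideal.sup_pow_eq_top h⟩

theorem exists_level_pow {f : Ideal (𝓞 (fieldL D))}
    (hsupp : ∀ Q : Ideal (𝓞 (fieldL D)), Q.IsPrime → Q ∣ f →
      upI (seedSetting P) (seedModulus D) ≤ Q) :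
    ∃ N : ℕ, upI (seedSetting P) (seedModulus D) ^ N ≤ f := by
  refine Ideal.exists_pow_le_of_le_radical_of_fg_radical ?_ (IsNoetherian.noetherian _)
  rw [Ideal.radical_eq_sInf]
  refine le_sInf fun Q ⟨hfQ, hQ⟩ => hsupp Q hQ (Ideal.dvd_iff_le.mpr hfQ)

/-- The seed character exists. -/
theorem exists_seedChar (hrec : ReciprocitySpec) :
    ∃ (e : ℕ) (C : SeedChar (seedSetting P)),
      C.s = seedModulus D ^ (e + 1) ∧ C.a = seedEigen D ∧
      ∀ m : ℕ, m ≠ 0 → ∃ Q : Ideal (𝓞 (fieldL D)), Q.IsMaximal ∧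
        PrimeTo (seedSetting P) C.s Q ∧ (m : 𝓞 (fieldL D)) ∉ Q ∧ C.ψ Q * C.ψ Q ≠ 1 := by
  classical
  set T := seedSetting P with hT
  set sL := upI T (seedModulus D) with hsL
  have := isTotallyComplex_fieldL D
  obtain ⟨L₀, hL₀, hL₀ker⟩ := D.factors
  have := hL₀
  obtain ⟨f, ψ, hf, hsupp, hmul, hval, hcongr⟩ := hrec (fieldL D) (isTotallyComplex_fieldL D) 4
    (by simp) (seedChi D) (fun g => chiQuartic_pow_four _)
    ⟨L₀, hL₀, fun g hg => Units.ext (by
      rw [coe_seedChi, hL₀ker g hg, chiFun_one, Units.val_one])⟩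
  have hsupp' : ∀ Q : Ideal (𝓞 (fieldL D)), Q.IsPrime → Q ∣ f → sL ≤ Q := by
    intro Q hQ hQf
    obtain ⟨A, hA, σ, hσ, hσI, hne⟩ := hsupp Q hQ hQf
    have hQ0 : Q ≠ ⊥ := by
      rintro rfl
      exact hf (zero_dvd_iff.mp hQf)
    have := hQ
    have hu0 : Q.under (𝓞 D.M) ≠ ⊥ := fun h => hQ0 (Ideal.eq_bot_of_comap_eq_bot h)
    have hu : (Q.under (𝓞 D.M)).IsMaximal := (Ideal.comap_isPrime _ Q).isMaximal hu0
    by_contra hle
    have hws : Q.under (𝓞 D.M) ⊔ seedModulus D = ⊤ := by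
      by_contra h
      exact hle (Ideal.map_le_iff_le_comap.mpr
        (le_sup_right.trans (hu.eq_of_le h le_sup_left).ge))
    have := hu.isPrime
    refine hne (Units.ext ?_)
    rw [coe_seedChi, rho_inertia D hu0 hws (placeOver_under hA) hσI
      (galL_le_galM D (fixingSubgroup_fieldL D ▸ hσ)), chiFun_one, Units.val_one]
  obtain ⟨N, hN⟩ := exists_level_pow P hsupp'
  have hndvd : ∀ Q : Ideal (𝓞 (fieldL D)), Q.IsMaximal → PrimeTo T (seedModulus D) Q → ¬ Q ∣ f :=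
    fun Q hQ hQs h => hQ.ne_top (top_le_iff.mp (hQs ▸ sup_le le_rfl (hsupp' Q hQ.isPrime h)))
  have hgood : ∀ I : Ideal (𝓞 (fieldL D)), PrimeTo T (seedModulus D) I → I ⊔ f = ⊤ := by
    intro I hI
    by_contra h
    obtain ⟨Q, hQ, hle⟩ := Ideal.exists_le_maximal _ h
    exact hQ.ne_top (top_le_iff.mp (hI ▸ sup_le (le_sup_left.trans hle)
      (hsupp' Q hQ.isPrime (Ideal.dvd_iff_le.mpr (le_sup_right.trans hle)))))
  have hfrob : ∀ (Q : Ideal (𝓞 (fieldL D))), Q.IsMaximal → PrimeTo T (seedModulus D) Q →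
      ∀ g, IsFrobOver (fieldL D) Q g → ψ Q = chiFun (D.ρ g) := fun Q hQ hQs g hg => by
    rw [hval Q hQ.isPrime (Ring.ne_bot_of_isMaximal_of_not_isField hQ
      (RingOfIntegers.not_isField _)) (hndvd Q hQ hQs) g hg.1 hg, coe_seedChi]
  -- a split prime with Frobenius of order four
  have := WeightOneWiring.isGalois_QB
  have : FiniteDimensional ℚ ↥(L₀ ⊔ fieldL D) := IntermediateField.finiteDimensional_sup _ _
  set L' : IntermediateField ℚ QB := IntermediateField.normalClosure ℚ ↥(L₀ ⊔ fieldL D) QB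
  have : FiniteDimensional ℚ L' := normalClosure.is_finiteDimensional ..
  have : Normal ℚ L' := normalClosure.normal ..
  have : IsGalois ℚ L' := IsGalois.mk
  have hle' : L₀ ⊔ fieldL D ≤ L' := IntermediateField.le_normalClosure _
  obtain ⟨σ₁, hσ₁⟩ := D.surjective quarticElt
  have hσ₁L : σ₁ ∈ (fieldL D).fixingSubgroup := by
    rw [fixingSubgroup_fieldL, mem_galL, hσ₁]; exact inC4_quarticElt
  have haux : ∀ m : ℕ, m ≠ 0 → ∃ (Q₀ : Ideal (𝓞 (fieldL D))) (w₀ : Ideal (𝓞 D.M)),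
      Q₀.IsMaximal ∧ (Ideal.absNorm Q₀).Prime ∧ w₀.IsMaximal ∧ w₀ ⊔ seedModulus D = ⊤ ∧
      upI T w₀ ≤ Q₀ ∧ PrimeTo T (seedModulus D) Q₀ ∧ (m : 𝓞 (fieldL D)) ∉ Q₀ ∧
      ψ Q₀ = Complex.I := by
    intro m hm
    obtain ⟨q, Q₀, g₀, hq, hqB, hQ₀, hQ₀0, hNQ₀, hg₀, hg₀σ⟩ :=
      LanglandsTunnell.CFT.exists_degreeOne_frobenius (F := fieldL D) L'
        (le_sup_right.trans hle') σ₁ hσ₁L (B := seedBase D * m)
        (mul_ne_zero (seedBase_ne_zero D) hm)
    have hρ₀ : D.ρ g₀ = quarticElt := by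
      have h : D.ρ (σ₁⁻¹ * g₀) = 1 := hL₀ker _ fun x hx => by
        rw [AlgEquiv.mul_apply, hg₀σ x (hle' (le_sup_left (b := fieldL D) hx)),
          ← AlgEquiv.mul_apply, inv_mul_cancel, AlgEquiv.one_apply]
      rw [map_mul, map_inv, inv_mul_eq_one, hσ₁] at h
      exact h.symm
    have hQ₀m : Q₀.IsMaximal := hQ₀.isMaximal hQ₀0
    have := hQ₀
    set w₀ := Q₀.under (𝓞 D.M) with hw₀def
    have hw₀0 : w₀ ≠ ⊥ := fun h => hQ₀0 (Ideal.eq_bot_of_comap_eq_bot h)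
    have hw₀ : w₀.IsMaximal := (Ideal.comap_isPrime _ Q₀).isMaximal hw₀0
    have hle₀ : upI T w₀ ≤ Q₀ := Ideal.map_comap_le
    have hqQ₀ : (q : 𝓞 (fieldL D)) ∈ Q₀ := by
      have := Ideal.absNorm_mem Q₀
      rwa [hNQ₀] at this
    have hws₀ : w₀ ⊔ seedModulus D = ⊤ := by
      refine sup_span_natCast_eq_top ?_ (hq.coprime_iff_not_dvd.mpr fun h => hqB (h.mul_right m))
      rw [hw₀def, Ideal.under_def, Ideal.mem_comap, map_natCast]
      exact hqQ₀
    have hQ₀s : PrimeTo T (seedModulus D) Q₀ := by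
      refine top_le_iff.mp (le_trans ?_ (sup_le_sup_right hle₀ _))
      rw [← Ideal.map_sup, hws₀, Ideal.map_top]
    have hψQ₀ : ψ Q₀ = Complex.I := by
      rw [hfrob Q₀ hQ₀m hQ₀s g₀ hg₀, hρ₀, chiFun_quarticElt]
    refine ⟨Q₀, w₀, hQ₀m, hNQ₀.symm ▸ hq, hw₀, hws₀, hle₀, hQ₀s, fun hmQ => ?_, hψQ₀⟩
    have h := sup_span_natCast_eq_top hqQ₀
      (hq.coprime_iff_not_dvd.mpr fun h => hqB (h.mul_left (seedBase D)))
    exact hQ₀m.ne_top (top_le_iff.mp
      (h.symm.le.trans (sup_le le_rfl ((Ideal.span_singleton_le_iff_mem _).mpr hmQ))))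
  obtain ⟨Q₀, w₀, hQ₀m, hNQ₀, hw₀, hws₀, hle₀, hQ₀s, -, hψQ₀⟩ := haux 1 one_ne_zero
  have hψtop : ψ ⊤ = 1 := by
    have h := hmul ⊤ Q₀
    rw [Ideal.top_mul, hψQ₀] at h
    exact mul_right_cancel₀ Complex.I_ne_zero (by rw [← h, one_mul])
  have hψprime : ∀ Q : Ideal (𝓞 (fieldL D)), Q.IsMaximal → PrimeTo T (seedModulus D) Q →
      ψ Q ^ 4 = 1 := by
    intro Q hQ hQs
    have := hQ.isPrime
    obtain ⟨g, hg⟩ := LanglandsTunnell.CFT.exists_isFrobOver
      (Ring.ne_bot_of_isMaximal_of_not_isField hQ (RingOfIntegers.not_isField _))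
    rw [hfrob Q hQ hQs g hg, ← coe_seedChi D ⟨g, hg.1⟩, ← Units.val_pow_eq_pow_val]
    exact congrArg Units.val (chiQuartic_pow_four _)
  have hψpow : ∀ I, I ≠ ⊥ → PrimeTo T (seedModulus D) I → ψ I ^ 4 = 1 := by
    intro I
    induction I using UniqueFactorizationMonoid.induction_on_prime with
    | h₁ => exact fun h => absurd rfl h
    | h₂ I hI => intro _ _; rw [Ideal.isUnit_iff.mp hI, hψtop, one_pow]
    | h₃ I Q hI hQ ih =>
      intro _ hs
      rw [PrimeTo, ← Ideal.isCoprime_iff_sup_eq, IsCoprime.mul_left_iff,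
        Ideal.isCoprime_iff_sup_eq, Ideal.isCoprime_iff_sup_eq] at hs
      rw [hmul, mul_pow, hψprime Q ((Ideal.isPrime_of_prime hQ).isMaximal hQ.ne_zero) hs.1,
        ih hI hs.2, one_mul]
  have hψcongr : ∀ x y : 𝓞 (fieldL D), x ≠ 0 → y ≠ 0 →
      PrimeTo T (seedModulus D ^ (N + 1)) (Ideal.span {x}) →
      x - y ∈ upI T (seedModulus D ^ (N + 1)) →
      ψ (Ideal.span {x}) = ψ (Ideal.span {y}) := by
    intro x y hx hy hxs hxy
    rw [upI, Ideal.map_pow] at hxy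
    exact hcongr x y hx hy (hgood _ ((primeTo_pow N).mp hxs))
      (hN (Ideal.pow_le_pow_right N.le_succ hxy))
  have hover : ∀ (w : Ideal (𝓞 D.M)) (Q : Ideal (𝓞 (fieldL D))), w ⊔ seedModulus D = ⊤ →
      upI T w ≤ Q → PrimeTo T (seedModulus D) Q := fun w Q hws hle => by
    refine top_le_iff.mp (le_trans ?_ (sup_le_sup_right hle _))
    rw [← Ideal.map_sup, hws, Ideal.map_top]
  have hsplit : ∀ (w : Ideal (𝓞 D.M)) (Q : Ideal (𝓞 (fieldL D))), w.IsMaximal →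
      w ⊔ seedModulus D = ⊤ → Q.IsMaximal → upI T w ≤ Q → conjI T Q ≠ Q →
      ψ Q * ψ (conjI T Q) = 1 ∧ seedEigen D w = ψ Q + ψ (conjI T Q) := by
    intro w Q hw hws hQ hle hne
    obtain ⟨g, hg, hgL, hg1, hg2⟩ := frob_split P hw hQ hle hne
    have := hw.isPrime
    rw [hfrob Q hQ (hover w Q hws hle) g hg1,
      hfrob _ (isMaximal_conjI T hQ) (hover w _ hws (up_le_conjI T hle)) _ hg2,
      seedEigen_eq D (maximal_ne_bot hw) hws hg, map_mul, map_mul, map_inv, rho_outerLift,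
      (outside_facts inQ8_outerElt not_inC4_outerElt).2.2 _ hgL]
    exact ⟨chiFun_mul_inv hgL, (chiFun_add_chiFun_inv hgL).symm⟩
  have hinert : ∀ (w : Ideal (𝓞 D.M)) (Q : Ideal (𝓞 (fieldL D))), w.IsMaximal →
      w ⊔ seedModulus D = ⊤ → Q.IsMaximal → upI T w ≤ Q → conjI T Q = Q →
      ψ Q = -1 ∧ seedEigen D w = 0 := by
    intro w Q hw hws hQ hle heq
    obtain ⟨g, hg, hgL, hg1⟩ := frob_inert P hw hws hQ hle heq
    have := hw.isPrime
    obtain ⟨h1, h2, -⟩ := outside_facts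
      ((mem_galM D).mp (fixingSubgroup_M D ▸ hg.1)) hgL
    rw [hfrob Q hQ (hover w Q hws hle) _ hg1, seedEigen_eq D (maximal_ne_bot hw) hws hg,
      map_mul, h2, chiFun_neg_one]
    exact ⟨rfl, h1⟩
  have hne₀ : conjI T Q₀ ≠ Q₀ := by
    intro heq
    have h := absNorm_eq_of_relNorm T
      (inert_data T hw₀ (unram_seed P hw₀ hws₀) hQ₀m hle₀ heq).2
    exact absurd (h ▸ hNQ₀) (Nat.Prime.not_prime_pow le_rfl)
  refine ⟨N, {
    s := seedModulus D ^ (N + 1)
    ψ := ψ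
    a := seedEigen D
    s_ne := pow_ne_zero _ (seedModulus_ne_bot D)
    ψ_mul := hmul
    ψ_top := hψtop
    ψ_pow := fun I hI hs => hψpow I hI ((primeTo_pow N).mp hs)
    ψ_congr := hψcongr
    unram := fun w hw hws => unram_seed P hw (sup_eq_top_of_sup_pow hws)
    split := fun w Q hw hws => hsplit w Q hw (sup_eq_top_of_sup_pow hws)
    inert := fun w Q hw hws => hinert w Q hw (sup_eq_top_of_sup_pow hws)
    nontriv := ⟨Q₀, hQ₀m, (primeTo_pow N).mpr hQ₀s, hne₀, fun h => ?_⟩ }, rfl, rfl, fun m hm => ?_⟩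
  swap
  · obtain ⟨Q, w, hQ, -, -, -, -, hQs, hmQ, hψ⟩ := haux m hm
    refine ⟨Q, hQ, (primeTo_pow N).mpr hQs, hmQ, ?_⟩
    show ψ Q * ψ Q ≠ 1
    rw [hψ, Complex.I_mul_I]
    norm_num
  have h1 := (hsplit w₀ Q₀ hw₀ hws₀ hQ₀m hle₀ hne₀).1
  rw [← h, hψQ₀, Complex.I_mul_I] at h1
  norm_num at h1

/-- A level for the seed. -/
theorem exists_level (e : ℕ) : ∃ j : ℕ, 1 ≤ j ∧
    (seedModulus D ^ j).map (algebraMap (𝓞 D.M) (𝓞 (fieldL D))) ≤
      upI (seedSetting P) (seedModulus D ^ e) ^ 2 *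
        ((seedSetting P).diffR * conjI (seedSetting P) (seedSetting P).diffR) := by
  set T := seedSetting P with hT
  have hd0 : T.diffR ≠ ⊥ := fun h => T.diffR_ne_zero (by rw [h]; exact FractionalIdeal.coeIdeal_bot)
  obtain ⟨N, hN⟩ := exists_level_pow P fun Q hQ hQd => by
    have hQm : Q.IsMaximal :=
      hQ.isMaximal fun h => hd0 (by subst h; exact zero_dvd_iff.mp hQd)
    have hm : (Q.under (𝓞 D.M)).IsMaximal := Ideal.IsMaximal.under (𝓞 D.M) Q
    have hws : ¬ (Q.under (𝓞 D.M) ⊔ seedModulus D = ⊤) := fun h =>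
      not_unram_of_dvd_diffR T hQm hQd (unram_seed P hm h)
    exact Ideal.map_le_iff_le_comap.mpr
      (le_sup_right.trans (hm.eq_of_le hws le_sup_left).ge)
  refine ⟨e * 2 + (N + N) + 1, Nat.le_add_left 1 _, ?_⟩
  have hN' : upI T (seedModulus D) ^ N ≤ conjI T T.diffR := by
    have h := Ideal.map_mono (f := (T.cO : 𝓞 (fieldL D) →+* 𝓞 (fieldL D))) hN
    rwa [Ideal.map_pow, T.map_cO_extended] at h
  simp only [upI, Ideal.map_pow, ← pow_mul]
  refine (Ideal.pow_le_pow_right (Nat.le_succ _)).trans ?_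
  rw [pow_add, pow_add]
  exact Ideal.mul_mono le_rfl (Ideal.mul_mono hN hN')

/-- Primes outside the level are prime to the modulus. -/
theorem sup_seedModulus_eq_top {j : ℕ} (hj : 1 ≤ j) {w : Ideal (𝓞 D.M)}
    (hw : w.IsPrime) (hw0 : w ≠ ⊥) (h : ¬ w ∣ seedModulus D ^ j) :
    w ⊔ seedModulus D = ⊤ := by
  by_contra hne
  exact h ((Ideal.dvd_iff_le.mpr (le_sup_right.trans
    ((hw.isMaximal hw0).eq_of_le hne le_sup_left).ge)).trans (dvd_pow_self _ (by omega)))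

/-- The coefficients of a seed character are invariant under every automorphism of `M`. -/
theorem coef_seed_map (C : SeedChar (seedSetting P)) {e : ℕ} (hs : C.s = seedModulus D ^ (e + 1))
    (ha : C.a = seedEigen D) (σ : D.M ≃ₐ[ℚ] D.M) {m : Ideal (𝓞 D.M)} (hm : m ≠ ⊥) :
    C.coef (m.map ((RingOfIntegers.mapRingEquiv σ.toRingEquiv : 𝓞 D.M ≃+* 𝓞 D.M) :
      𝓞 D.M →+* 𝓞 D.M)) = C.coef m :=
  C.coef_map _ (by rw [hs, Ideal.map_pow, seedModulus_map])
    (fun w hw hws => by rw [ha]; exact seedEigen_map D σ hw (sup_eq_top_of_sup_pow (hs ▸ hws))) m hm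

end FLTAgent.LanglandsTunnell.SeedCoeff
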