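import Fermat.Agent.LanglandsTunnell.SeedCoeff.Group
import Fermat.Agent.LanglandsTunnell.Seed.Setting
import Mathlib.FieldTheory.Galois.Infinite
import Mathlib.NumberTheory.NumberField.InfinitePlace.TotallyRealComplex

/-!
# The quadratic extension of the sextic field and its setting

`fieldL` is the fixed field of the preimage of the cyclic subgroup of order four: a totally
complex quadratic extension of `M` with conjugation `conjL`.  `seedSetting` is the setting of the
seed over this extension, used by all the later files on the seed of a datum.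
-/

set_option autoImplicit false

noncomputable section

namespace FLTAgent.LanglandsTunnell.SeedCoeff

open FLTAgent.LanglandsTunnell FLTAgent.LanglandsTunnell.Seed NumberField

variable (D : Datum)

/-- The Galois group of the quadratic extension. -/
def galL : Subgroup GQ := quarticSubgroup.comap D.ρ

theorem mem_galL {g : GQ} : g ∈ galL D ↔ InC4 (D.ρ g) := Iff.rfl

theorem galL_le_galM : galL D ≤ D.galM := fun _ h => (mem_galM D).mpr (InC4.inQ8 h)

theorem ker_le_galL : D.ρ.ker ≤ galL D := fun σ hσ => by
  rw [mem_galL, MonoidHom.mem_ker.mp hσ]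
  simp [InC4]

/-- The quadratic extension of `M`. -/
def fieldL : IntermediateField ℚ QB := IntermediateField.fixedField (galL D)

instance finiteDimensional_fieldL : FiniteDimensional ℚ (fieldL D) :=
  D.finiteDimensional_fixedField (ker_le_galL D)

instance numberField_fieldL : NumberField (fieldL D) where

theorem fixingSubgroup_fieldL : (fieldL D).fixingSubgroup = galL D :=
  WeightOneWiring.fixingSubgroup_fixedField_of_ker_le D (ker_le_galL D)

theorem M_le_fieldL : D.M ≤ fieldL D := fun x hx => by
  rw [fieldL, IntermediateField.mem_fixedField_iff]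
  intro σ hσ
  exact (IntermediateField.mem_fixedField_iff _ _).mp hx σ (galL_le_galM D hσ)

instance algebraML : Algebra D.M (fieldL D) :=
  (IntermediateField.inclusion (M_le_fieldL D)).toRingHom.toAlgebra

instance towerML : IsScalarTower ℚ D.M (fieldL D) :=
  IsScalarTower.of_algebraMap_eq fun _ => rfl

theorem val_algebraMap (x : D.M) : ((algebraMap D.M (fieldL D) x : fieldL D) : QB) = (x : QB) :=
  rfl

theorem galL_index : (galL D).index = 12 := by
  rw [galL, Subgroup.index_comap_of_surjective _ D.surjective]
  have h := quarticSubgroup.card_mul_index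
  rw [natCard_quarticSubgroup, LanglandsTunnell.natCard_GL_three] at h
  omega

theorem finrank_fieldL : Module.finrank ℚ (fieldL D) = 12 := by
  have := WeightOneWiring.isGalois_QB
  rw [IntermediateField.finrank_eq_fixingSubgroup_index, fixingSubgroup_fieldL, galL_index]

theorem finrank_ML : Module.finrank D.M (fieldL D) = 2 := by
  have h := Module.finrank_mul_finrank ℚ D.M (fieldL D)
  rw [WeightOneWiring.finrank_M, finrank_fieldL] at h
  omega

/-- An element of the quaternion group outside the subgroup of order four. -/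
def outerElt : GL (Fin 2) (ZMod 3) where
  val := !![1, 1; 1, -1]
  inv := !![-1, -1; -1, 1]
  val_inv := by decide +kernel
  inv_val := by decide +kernel

theorem inQ8_outerElt : InQ8 outerElt := by
  refine ⟨?_, Or.inl ?_⟩
  · show Matrix.det !![(1 : ZMod 3), 1; 1, -1] = 1
    decide +kernel
  · show Matrix.trace !![(1 : ZMod 3), 1; 1, -1] = 0
    decide +kernel

theorem not_inC4_outerElt : ¬ InC4 outerElt := by
  rintro ⟨h, -, -⟩
  revert h
  show ¬ ((1 : ZMod 3) = -1)
  decide +kernel

/-- An element of `Gal(QB/M)` moving `L`. -/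
def outerLift : GQ := (D.surjective outerElt).choose

theorem rho_outerLift : D.ρ (outerLift D) = outerElt := (D.surjective outerElt).choose_spec

theorem outerLift_mem : outerLift D ∈ D.galM := by
  rw [mem_galM, rho_outerLift]; exact inQ8_outerElt

theorem outerLift_notMem : outerLift D ∉ galL D := by
  rw [mem_galL, rho_outerLift]; exact not_inC4_outerElt

theorem conj_mem_galL {h g : GQ} (hh : h ∈ D.galM) (hg : g ∈ galL D) : h * g * h⁻¹ ∈ galL D := by
  by_cases h' : h ∈ galL D
  · exact mul_mem (mul_mem h' hg) (inv_mem h')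
  · rw [mem_galL, map_mul, map_mul, map_inv,
      (outside_facts ((mem_galM D).mp hh) h').2.2 _ hg]
    exact quarticSubgroup.inv_mem hg

theorem apply_mem_fieldL {h : GQ} (hh : h ∈ D.galM) {x : QB} (hx : x ∈ fieldL D) :
    h x ∈ fieldL D := by
  rw [fieldL, IntermediateField.mem_fixedField_iff]
  intro σ hσ
  have h1 := (IntermediateField.mem_fixedField_iff _ _).mp hx _
    (conj_mem_galL D (D.galM.inv_mem hh) hσ)
  rw [inv_inv, AlgEquiv.mul_apply, AlgEquiv.mul_apply] at h1
  have h2 := congrArg h h1
  rwa [← AlgEquiv.mul_apply h h⁻¹, mul_inv_cancel, AlgEquiv.one_apply] at h2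

theorem apply_M {h : GQ} (hh : h ∈ D.galM) (x : D.M) : h (x : QB) = (x : QB) :=
  (IntermediateField.mem_fixedField_iff _ _).mp x.2 h hh

/-- The restriction to `L` of an element fixing `M`. -/
def restrictL {h : GQ} (hh : h ∈ D.galM) : fieldL D ≃ₐ[D.M] fieldL D where
  toFun x := ⟨h (x : QB), apply_mem_fieldL D hh x.2⟩
  invFun x := ⟨h⁻¹ (x : QB), apply_mem_fieldL D (D.galM.inv_mem hh) x.2⟩
  left_inv x := Subtype.ext (by
    show h⁻¹ (h (x : QB)) = _
    rw [← AlgEquiv.mul_apply, inv_mul_cancel, AlgEquiv.one_apply])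
  right_inv x := Subtype.ext (by
    show h (h⁻¹ (x : QB)) = _
    rw [← AlgEquiv.mul_apply, mul_inv_cancel, AlgEquiv.one_apply])
  map_mul' x y := Subtype.ext (map_mul h (x : QB) (y : QB))
  map_add' x y := Subtype.ext (map_add h (x : QB) (y : QB))
  commutes' m := Subtype.ext (apply_M D hh m)

/-- The conjugation of `L` over `M`. -/
def conjL : fieldL D ≃ₐ[D.M] fieldL D := restrictL D (outerLift_mem D)

theorem conjL_ne_one : conjL D ≠ 1 := by
  intro h
  refine outerLift_notMem D ?_
  rw [← fixingSubgroup_fieldL, IntermediateField.mem_fixingSubgroup_iff]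
  intro x hx
  exact congrArg Subtype.val (DFunLike.congr_fun h (⟨x, hx⟩ : fieldL D))

theorem not_isReal_fieldL (φ : fieldL D →+* ℂ) : ¬ ComplexEmbedding.IsReal φ := by
  obtain ⟨ζ, hζ3, hζ1⟩ := WeightOneWiring.exists_zeta D
  refine WeightOneWiring.not_isReal (ζ := algebraMap D.M (fieldL D) (D.incl ζ)) ?_ ?_ φ
  · rw [← map_pow, ← map_pow, hζ3, map_one, map_one]
  · intro h
    rw [← map_one (algebraMap D.M (fieldL D)), ← map_one D.incl] at h
    exact hζ1 (D.incl.injective ((algebraMap D.M (fieldL D)).injective h))

theorem isTotallyComplex_fieldL : IsTotallyComplex (fieldL D) :=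
  ⟨fun v => by
    rw [← InfinitePlace.mk_embedding v]
    exact InfinitePlace.isComplex_mk_iff.mpr (not_isReal_fieldL D _)⟩

theorem exists_emb_ext (φ : D.M →+* ℂ) :
    ∃ τ : fieldL D →+* ℂ, τ.comp (algebraMap D.M (fieldL D)) = φ := by
  let : Algebra D.M ℂ := φ.toAlgebra
  have : Algebra.IsAlgebraic D.M (fieldL D) := Algebra.IsAlgebraic.of_finite _ _
  exact ⟨(IsAlgClosed.lift (M := ℂ) : fieldL D →ₐ[D.M] ℂ).toRingHom,
    RingHom.ext fun x => (IsAlgClosed.lift (M := ℂ) : fieldL D →ₐ[D.M] ℂ).commutes x⟩

variable {D}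

/-- The setting of the seed. -/
def seedSetting (P : ExtPlaces D) : Setting D.M (fieldL D) (Fin 3) where
  Φ := P.placesM
  τ i := (exists_emb_ext D (P.placesM.emb i)).choose
  τ_ext i := (exists_emb_ext D (P.placesM.emb i)).choose_spec
  c := conjL D
  c_ne := conjL_ne_one D
  finrank_eq := finrank_ML D

theorem seedSetting_Φ (P : ExtPlaces D) : (seedSetting P).Φ = P.placesM := rfl

end FLTAgent.LanglandsTunnell.SeedCoeff
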