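import Fermat.Agent.LanglandsTunnell.Datum
import Fermat.Agent.WeightOneWiring.Places

/-!
# The cyclic subgroup of order four of the quaternion group of `GL(2, 𝔽₃)`

`quarticSubgroup` is generated by `(0 -1; 1 0)` and `chiQuartic` is its faithful character; the
elements of the quaternion group outside it have trace zero and invert it (`outside_facts`).
These facts define the quadratic extension and the character of the seed.
-/

set_option autoImplicit false

noncomputable section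

namespace FLTAgent.LanglandsTunnell.SeedCoeff

open FLTAgent.LanglandsTunnell Matrix

local notation "G₃" => GL (Fin 2) (ZMod 3)
local notation "M₃" => Matrix (Fin 2) (Fin 2) (ZMod 3)

/-- The subgroup generated by `(0 -1; 1 0)`. -/
def InC4 (g : G₃) : Prop :=
  g.1 0 1 = -(g.1 1 0) ∧ g.1 1 1 = g.1 0 0 ∧ g.1 0 0 * g.1 0 0 + g.1 1 0 * g.1 1 0 = 1

theorem InC4.val_eq {g : G₃} (h : InC4 g) :
    g.1 = !![g.1 0 0, -(g.1 1 0); g.1 1 0, g.1 0 0] := by
  ext i j
  fin_cases i <;> fin_cases j <;> simp [h.1, h.2.1]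

theorem InC4.inQ8 {g : G₃} (h : InC4 g) : InQ8 g := by
  obtain ⟨h1, h2, h3⟩ := h
  have key : ∀ a b : ZMod 3, a * a + b * b = 1 →
      a + a = 0 ∨ (!![a, -b; b, a] : M₃) = 1 ∨ (!![a, -b; b, a] : M₃) = -1 := by decide +kernel
  rw [InQ8, det_fin_two, trace_fin_two]
  refine ⟨by rw [h1, h2]; linear_combination h3, ?_⟩
  rcases key _ _ h3 with e | e | e
  · exact Or.inl (by rw [h2]; exact e)
  · exact Or.inr (Or.inl ((InC4.val_eq ⟨h1, h2, h3⟩).trans e))
  · exact Or.inr (Or.inr ((InC4.val_eq ⟨h1, h2, h3⟩).trans e))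

theorem InC4.inv_val {g : G₃} (h : InC4 g) :
    (g⁻¹).1 = !![g.1 0 0, g.1 1 0; -(g.1 1 0), g.1 0 0] := by
  refine Units.inv_eq_of_mul_eq_one_right ?_
  obtain ⟨h1, h2, h3⟩ := h
  ext i j
  fin_cases i <;> fin_cases j <;> simp [Matrix.mul_apply, Fin.sum_univ_two, h1, h2] <;>
    first | linear_combination h3 | ring1

/-- The subgroup of order four. -/
def quarticSubgroup : Subgroup G₃ where
  carrier := {g | InC4 g}
  one_mem' := by simp [InC4]
  mul_mem' {x y} hx hy := by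
    obtain ⟨x1, x2, x3⟩ := hx
    obtain ⟨y1, y2, y3⟩ := hy
    refine ⟨?_, ?_, ?_⟩ <;>
      simp only [Units.val_mul, Matrix.mul_apply, Fin.sum_univ_two, x1, x2, y1, y2]
    · ring
    · ring
    · linear_combination (x.1 0 0 * x.1 0 0 + x.1 1 0 * x.1 1 0) * y3 + x3
  inv_mem' {g} hg := by
    have e := InC4.inv_val hg
    obtain ⟨h1, h2, h3⟩ := hg
    refine ⟨?_, ?_, ?_⟩ <;> simp [e]
    linear_combination h3

/-- An element of order four in it. -/
def quarticElt : G₃ where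
  val := !![0, -1; 1, 0]
  inv := !![0, 1; -1, 0]
  val_inv := by decide +kernel
  inv_val := by decide +kernel

theorem inC4_quarticElt : InC4 quarticElt := by
  refine ⟨?_, ?_, ?_⟩ <;> simp [quarticElt]

theorem natCard_quarticSubgroup : Nat.card quarticSubgroup = 4 := by
  let T := {v : ZMod 3 × ZMod 3 // v.1 * v.1 + v.2 * v.2 = 1}
  have hT : Nat.card T = 4 := by
    rw [Nat.card_eq_fintype_card]
    decide +kernel
  rw [← hT]
  refine Nat.card_eq_of_bijective
    (fun g : quarticSubgroup => (⟨(g.1.1 0 0, g.1.1 1 0), g.2.2.2⟩ : T)) ⟨?_, ?_⟩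
  · intro g h e
    have e' := congrArg Subtype.val e
    refine Subtype.ext (Units.ext ?_)
    rw [InC4.val_eq g.2, InC4.val_eq h.2]
    simp only [Prod.mk.injEq] at e'
    rw [e'.1, e'.2]
  · rintro ⟨⟨a, b⟩, h⟩
    refine ⟨⟨⟨!![a, -b; b, a], !![a, b; -b, a], ?_, ?_⟩, ?_⟩, rfl⟩
    · ext i j; fin_cases i <;> fin_cases j <;> simp [Matrix.mul_apply, Fin.sum_univ_two] <;>
        first | linear_combination h | ring1
    · ext i j; fin_cases i <;> fin_cases j <;> simp [Matrix.mul_apply, Fin.sum_univ_two] <;>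
        first | linear_combination h | ring1
    · refine ⟨?_, ?_, ?_⟩ <;> simp [h]

/-- `0, 1, -1` as complex numbers. -/
def liftC (x : ZMod 3) : ℂ := (x.valMinAbs : ℂ)

/-- The faithful character of the subgroup of order four. -/
def chiFun (g : G₃) : ℂ := liftC (g.1 0 0) + liftC (g.1 1 0) * Complex.I

theorem lift_mul_entries : ∀ a b a' b' : ZMod 3, a * a + b * b = 1 → a' * a' + b' * b' = 1 →
    (a * a' - b * b').valMinAbs =
        a.valMinAbs * a'.valMinAbs - b.valMinAbs * b'.valMinAbs ∧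
      (b * a' + a * b').valMinAbs =
        b.valMinAbs * a'.valMinAbs + a.valMinAbs * b'.valMinAbs := by
  decide +kernel

theorem chiFun_mul {g h : G₃} (hg : InC4 g) (hh : InC4 h) :
    chiFun (g * h) = chiFun g * chiFun h := by
  obtain ⟨g1, g2, g3⟩ := hg
  obtain ⟨h1, h2, h3⟩ := hh
  obtain ⟨e1, e2⟩ := lift_mul_entries _ _ _ _ g3 h3
  have a1 : (g * h).1 0 0 = g.1 0 0 * h.1 0 0 - g.1 1 0 * h.1 1 0 := by
    simp [Matrix.mul_apply, Fin.sum_univ_two, g1]
    ring
  have a2 : (g * h).1 1 0 = g.1 1 0 * h.1 0 0 + g.1 0 0 * h.1 1 0 := by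
    simp [Matrix.mul_apply, Fin.sum_univ_two, g2]
  simp only [chiFun, liftC, a1, a2, e1, e2]
  push_cast
  linear_combination (-((g.1 1 0).valMinAbs : ℂ) * ((h.1 1 0).valMinAbs : ℂ)) * Complex.I_mul_I

theorem chiFun_one : chiFun 1 = 1 := by
  simp [chiFun, liftC, show ((1 : ZMod 3).valMinAbs) = 1 from by decide +kernel]

theorem chiFun_quarticElt : chiFun quarticElt = Complex.I := by
  simp [chiFun, liftC, quarticElt, show ((1 : ZMod 3).valMinAbs) = 1 from by decide +kernel]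

theorem chiFun_neg_one : chiFun (-1) = -1 := by
  simp [chiFun, liftC, show ((-1 : ZMod 3).valMinAbs) = -1 from by decide +kernel]

theorem chiFun_mul_inv {g : G₃} (hg : InC4 g) : chiFun g * chiFun g⁻¹ = 1 := by
  rw [← chiFun_mul hg (quarticSubgroup.inv_mem hg), mul_inv_cancel, chiFun_one]

/-- The character as a homomorphism. -/
def chiQuartic : quarticSubgroup →* ℂˣ :=
  MonoidHom.toHomUnits
    { toFun := fun g => chiFun g.1
      map_one' := chiFun_one
      map_mul' := fun g h => chiFun_mul g.2 h.2 }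

theorem pow_four_eq_one {g : G₃} (hg : InC4 g) : g ^ 4 = 1 := by
  have h := pow_card_eq_one' (G := quarticSubgroup) (x := ⟨g, hg⟩)
  rw [natCard_quarticSubgroup] at h
  exact congrArg Subtype.val h

theorem chiQuartic_pow_four (g : quarticSubgroup) : chiQuartic g ^ 4 = 1 := by
  rw [← map_pow, show g ^ 4 = 1 from Subtype.ext (pow_four_eq_one g.2), map_one]

theorem chiFun_add_chiFun_inv {g : G₃} (hg : InC4 g) :
    chiFun g + chiFun g⁻¹ = trLift g := by
  have hq := hg.inQ8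
  have e := hg.inv_val
  have hg0 := hg
  obtain ⟨-, h2, h3⟩ := hg
  have key : ∀ a b : ZMod 3, a * a + b * b = 1 → (-b).valMinAbs = -(b.valMinAbs) ∧
      ((a = 1 ∧ b = 0 ∧ a.valMinAbs = 1) ∨ (a = -1 ∧ b = 0 ∧ a.valMinAbs = -1) ∨
        (a = 0 ∧ (!![a, -b; b, a] : M₃) ≠ 1 ∧ (!![a, -b; b, a] : M₃) ≠ -1 ∧ a.valMinAbs = 0)) := by
    decide +kernel
  obtain ⟨hb, hk⟩ := key _ _ h3
  have hsum : chiFun g + chiFun g⁻¹ = 2 * ((g.1 0 0).valMinAbs : ℂ) := by
    simp only [chiFun, liftC, e, of_apply, cons_val', cons_val_zero, cons_val_one,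
      cons_val_fin_one, hb]
    push_cast
    ring
  rw [hsum, trLift, if_pos hq.1]
  rcases hk with ⟨ha, hb0, hv⟩ | ⟨ha, hb0, hv⟩ | ⟨ha, hn1, hn2, hv⟩
  · have h1 : g.1 = 1 := by
      rw [hg0.val_eq, ha, hb0]; decide +kernel
    rw [if_pos h1, hv]; norm_num
  · have h1 : g.1 = -1 := by
      rw [hg0.val_eq, ha, hb0]; decide +kernel
    have h1' : g.1 ≠ 1 := by rw [h1]; decide +kernel
    rw [if_neg h1', if_pos h1, hv]; norm_num
  · rw [← hg0.val_eq] at hn1 hn2
    rw [if_neg hn1, if_neg hn2, if_pos, hv]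
    · norm_num
    · rw [trace_fin_two, h2, ha, add_zero]

theorem entries_outside : ∀ e f k l : ZMod 3, e * l - f * k = 1 →
    (e + l = 0 ∨ (!![e, f; k, l] : M₃) = 1 ∨ (!![e, f; k, l] : M₃) = -1) →
    ¬ (f = -k ∧ l = e ∧ e * e + k * k = 1) →
    ((!![e, f; k, l] : M₃) * !![e, f; k, l] = -1 ∧ e + l = 0 ∧
      (!![e, f; k, l] : M₃) ≠ 1 ∧ (!![e, f; k, l] : M₃) ≠ -1) ∧
    ∀ a b : ZMod 3, a * a + b * b = 1 →
      (!![e, f; k, l] : M₃) * !![a, -b; b, a] = !![a, b; -b, a] * !![e, f; k, l] := by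
  decide +kernel

theorem outside_facts {y : G₃} (hy : InQ8 y) (hy' : ¬ InC4 y) :
    trLift y = 0 ∧ y * y = -1 ∧ ∀ x : G₃, InC4 x → y * x * y⁻¹ = x⁻¹ := by
  obtain ⟨hd, h⟩ := WeightOneWiring.inQ8_entries.mp hy
  rw [eta_fin_two y.1] at h
  obtain ⟨⟨h1, h2, h3, h4⟩, h5⟩ := entries_outside _ _ _ _ hd (by simpa using h) hy'
  rw [← eta_fin_two y.1] at h1 h3 h4
  refine ⟨?_, Units.ext (by rw [Units.val_mul, h1, Units.val_neg, Units.val_one]), fun x hx => ?_⟩
  · rw [trLift, if_pos hy.1, if_neg h3, if_neg h4, if_pos]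
    rw [trace_fin_two]; exact h2
  · rw [mul_inv_eq_iff_eq_mul]
    refine Units.ext ?_
    have := h5 _ _ hx.2.2
    rw [← eta_fin_two y.1, ← hx.val_eq, ← hx.inv_val] at this
    exact this

theorem inC4_neg_one : InC4 (-1) := by
  simp [InC4]

theorem eq_one_of_inQ8 {g : G₃} (hg : InQ8 g)
    (h : (g.1 - 1) * (g.1 - 1) = 0 ∨ (g.1 - 1).det = 0) : g = 1 := by
  obtain ⟨hd, h'⟩ := WeightOneWiring.inQ8_entries.mp hg
  have key : ∀ a b c d : ZMod 3, a * d - b * c = 1 →
      (a + d = 0 ∨ (!![a, b; c, d] : M₃) = 1 ∨ (!![a, b; c, d] : M₃) = -1) →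
      ((!![a, b; c, d] - 1 : M₃) * (!![a, b; c, d] - 1) = 0 ∨
        (!![a, b; c, d] - 1 : M₃).det = 0) →
      (!![a, b; c, d] : M₃) = 1 := by
    decide +kernel
  rw [eta_fin_two g.1] at h' h
  refine Units.ext ?_
  rw [eta_fin_two g.1]
  exact key _ _ _ _ hd (by simpa using h') h

theorem trLift_conj (x g : G₃) : trLift (x * g * x⁻¹) = trLift g := by
  have hv : (x * g * x⁻¹ : G₃).1 = x.1 * g.1 * (x⁻¹).1 := rfl
  have hdet : (x * g * x⁻¹).1.det = g.1.det := by rw [hv, Matrix.det_units_conj]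
  have htr : (x * g * x⁻¹).1.trace = g.1.trace := by rw [hv, Matrix.trace_units_conj]
  have hpm : ∀ u : G₃, x * u * x⁻¹ = u → ((x * g * x⁻¹).1 = u.1 ↔ g.1 = u.1) := by
    intro u hu
    constructor
    · intro h
      have h' : x * g * x⁻¹ = x * u * x⁻¹ := by rw [hu]; exact Units.ext h
      rw [mul_right_cancel_iff, mul_left_cancel_iff] at h'
      rw [h']
    · intro h
      rw [show g = u from Units.ext h, hu]
  have h1 := hpm 1 (by simp)
  have h2 := hpm (-1) (by simp)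
  simp only [Units.val_neg, Units.val_one] at h1 h2
  simp only [trLift, hdet, htr, h1, h2]

end FLTAgent.LanglandsTunnell.SeedCoeff
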