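import Fermat.Agent.LanglandsTunnell.Seed.IdealAlg
import Mathlib.RingTheory.DedekindDomain.Different
import Mathlib.FieldTheory.Finite.Basic

/-!
# Primes of a quadratic extension of number fields

Conjugation and extension of ideals (`conjI`, `upI`), relative norms, the dichotomy split or inert
(`split_data`, `inert_data`) and ramification at the relative different.  Used by the
coefficients and the local theory of the seed.
-/

set_option autoImplicit false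
set_option linter.unusedSectionVars false

noncomputable section

namespace FLTAgent.LanglandsTunnell.SeedCoeff

open FLTAgent.LanglandsTunnell FLTAgent.LanglandsTunnell.Seed NumberField

variable {M L ι : Type} [Field M] [NumberField M] [Field L] [NumberField L] [Algebra M L]
  [Fintype ι] (T : Setting M L ι)

/-- The conjugate of an ideal of `L`. -/
abbrev conjI (Q : Ideal (𝓞 L)) : Ideal (𝓞 L) := Q.map (T.cO : 𝓞 L →+* 𝓞 L)

/-- The extension to `L` of an ideal of `M`. -/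
abbrev upI (_T : Setting M L ι) (P : Ideal (𝓞 M)) : Ideal (𝓞 L) :=
  P.map (algebraMap (𝓞 M) (𝓞 L))

theorem maximal_ne_bot {P : Ideal (𝓞 M)} (hP : P.IsMaximal) : P ≠ ⊥ :=
  Ring.ne_bot_of_isMaximal_of_not_isField hP (RingOfIntegers.not_isField M)

include T

theorem finrank_int : Module.finrank (𝓞 M) (𝓞 L) = 2 := by
  rw [← IsFractionRing.finrank_eq (𝓞 M) M (𝓞 L) L, T.finrank_eq]

theorem relNorm_up (P : Ideal (𝓞 M)) : Ideal.relNorm (𝓞 M) (upI T P) = P ^ 2 := by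
  rw [Ideal.relNorm_algebraMap, finrank_int T]

theorem relNorm_conjI (Q : Ideal (𝓞 L)) :
    Ideal.relNorm (𝓞 M) (conjI T Q) = Ideal.relNorm (𝓞 M) Q :=
  Ideal.relNorm_map_algEquiv T.cO Q

theorem conjI_conjI (Q : Ideal (𝓞 L)) : conjI T (conjI T Q) = Q := T.map_cO_cO Q

theorem isMaximal_conjI {Q : Ideal (𝓞 L)} (hQ : Q.IsMaximal) : (conjI T Q).IsMaximal :=
  Ideal.map_isMaximal_of_equiv T.cO.toRingEquiv

theorem up_le_conjI {P : Ideal (𝓞 M)} {Q : Ideal (𝓞 L)} (h : upI T P ≤ Q) :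
    upI T P ≤ conjI T Q := by
  have h' := Ideal.map_mono (f := (T.cO : 𝓞 L →+* 𝓞 L)) h
  rwa [T.map_cO_extended] at h'

theorem comap_eq_of_up_le {P : Ideal (𝓞 M)} (hP : P.IsMaximal) {Q : Ideal (𝓞 L)}
    (hQ : Q.IsMaximal) (h : upI T P ≤ Q) : Q.comap (algebraMap (𝓞 M) (𝓞 L)) = P :=
  (hP.eq_of_le (Ideal.comap_ne_top _ hQ.ne_top) (Ideal.map_le_iff_le_comap.mp h)).symm

theorem liesOver_of_up_le {P : Ideal (𝓞 M)} (hP : P.IsMaximal) {Q : Ideal (𝓞 L)}
    (hQ : Q.IsMaximal) (h : upI T P ≤ Q) : Q.LiesOver P :=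
  ⟨(comap_eq_of_up_le T hP hQ h).symm⟩

theorem eq_top_of_relNorm_eq_top {K : Ideal (𝓞 L)} (h : Ideal.relNorm (𝓞 M) K = ⊤) : K = ⊤ := by
  have h' := Ideal.relNorm_le_comap (𝓞 M) K
  rw [h, top_le_iff, Ideal.comap_eq_top_iff] at h'
  exact h'

theorem exists_over (P : Ideal (𝓞 M)) (hP : P.IsMaximal) :
    ∃ Q : Ideal (𝓞 L), Q.IsMaximal ∧ upI T P ≤ Q := by
  have := hP
  obtain ⟨Q, hQ, hle, -⟩ := T.ringData.exists_prime_above (P := P)
  exact ⟨Q, hQ, hle⟩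

theorem eq_or_eq_of_over {P : Ideal (𝓞 M)} (hP : P.IsMaximal) {Q Q' : Ideal (𝓞 L)}
    (hQ : Q.IsMaximal) (hle : upI T P ≤ Q) (hQ' : Q'.IsMaximal) (hle' : upI T P ≤ Q') :
    Q' = Q ∨ Q' = conjI T Q := by
  have := hP
  exact T.ringData.eq_or_eq_of_prime hQ hle hQ' hle'

theorem splits_iff {P : Ideal (𝓞 M)} (hP : P.IsMaximal) {Q : Ideal (𝓞 L)}
    (hQ : Q.IsMaximal) (hle : upI T P ≤ Q) : T.ringData.Splits P ↔ conjI T Q ≠ Q := by
  refine ⟨fun ⟨Q', hQ', hle', hne⟩ heq => ?_, fun hne => ⟨Q, hQ, hle, hne⟩⟩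
  rcases eq_or_eq_of_over T hP hQ hle hQ' hle' with rfl | h
  · exact hne heq
  · exact hne (by
      show conjI T Q' = Q'
      rw [h, conjI_conjI T, heq])

theorem exists_relNorm_pow {P : Ideal (𝓞 M)} (hP : P.IsMaximal) {Q : Ideal (𝓞 L)}
    (hQ : Q.IsMaximal) (hle : upI T P ≤ Q) :
    ∃ a : ℕ, 1 ≤ a ∧ a ≤ 2 ∧ Ideal.relNorm (𝓞 M) Q = P ^ a := by
  have := hP.isPrime
  have := liesOver_of_up_le T hP hQ hle
  obtain ⟨a, ha⟩ := Ideal.exists_relNorm_eq_pow_of_isPrime Q P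
  refine ⟨a, ?_, ?_, ha⟩
  · by_contra h
    rw [show a = 0 by omega, pow_zero, Ideal.one_eq_top] at ha
    exact hQ.ne_top (eq_top_of_relNorm_eq_top T ha)
  · have h' := Ideal.relNorm_mono (𝓞 M) hle
    rw [relNorm_up T, ha, ← Ideal.dvd_iff_le] at h'
    exact (pow_dvd_pow_iff (maximal_ne_bot hP)
      (fun hu => hP.ne_top (Ideal.isUnit_iff.mp hu))).mp h'

/-- A split prime. -/
theorem split_data {P : Ideal (𝓞 M)} (hP : P.IsMaximal) {Q : Ideal (𝓞 L)}
    (hQ : Q.IsMaximal) (hle : upI T P ≤ Q) (hne : conjI T Q ≠ Q) :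
    upI T P = Q * conjI T Q ∧ Ideal.relNorm (𝓞 M) Q = P := by
  have hcQ := isMaximal_conjI T hQ
  have hle2 : upI T P ≤ Q * conjI T Q := by
    rw [Ideal.mul_eq_inf_of_coprime (Ideal.isCoprime_iff_sup_eq.mp (by
      rw [Ideal.isCoprime_iff_sup_eq]; exact hQ.coprime_of_ne hcQ hne.symm))]
    exact le_inf hle (up_le_conjI T hle)
  obtain ⟨K, hK⟩ := Ideal.dvd_iff_le.mpr hle2
  obtain ⟨a, ha1, -, ha⟩ := exists_relNorm_pow T hP hQ hle
  have hN := congrArg (Ideal.relNorm (𝓞 M)) hK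
  rw [relNorm_up T, map_mul, map_mul, relNorm_conjI T, ha, ← pow_add] at hN
  have hd : P ^ (a + a) ∣ P ^ 2 := ⟨_, hN⟩
  have ha' : a = 1 := by
    have := (pow_dvd_pow_iff (maximal_ne_bot hP)
      (fun hu => hP.ne_top (Ideal.isUnit_iff.mp hu))).mp hd
    omega
  subst ha'
  have hK1 : Ideal.relNorm (𝓞 M) K = ⊤ := by
    refine mul_left_cancel₀ (pow_ne_zero 2 (maximal_ne_bot hP)) ?_
    rw [show (1 : ℕ) + 1 = 2 from rfl] at hN
    rw [← hN, Ideal.mul_top]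
  rw [eq_top_of_relNorm_eq_top T hK1, Ideal.mul_top] at hK
  exact ⟨hK, by rw [ha, pow_one]⟩

/-- An inert prime. -/
theorem inert_data {P : Ideal (𝓞 M)} (hP : P.IsMaximal) (hu : T.ringData.Unram P)
    {Q : Ideal (𝓞 L)} (hQ : Q.IsMaximal) (hle : upI T P ≤ Q) (heq : conjI T Q = Q) :
    upI T P = Q ∧ Ideal.relNorm (𝓞 M) Q = P ^ 2 := by
  have := hP
  have h : upI T P = Q ⊓ conjI T Q := T.ringData.up_eq_inf hu hQ hle
  rw [heq, inf_idem] at h
  exact ⟨h, by rw [← h, relNorm_up T]⟩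

theorem absNorm_eq_of_relNorm {Q : Ideal (𝓞 L)} {P : Ideal (𝓞 M)} {a : ℕ}
    (h : Ideal.relNorm (𝓞 M) Q = P ^ a) : Ideal.absNorm Q = Ideal.absNorm P ^ a := by
  rw [← Ideal.absNorm_relNorm (R := 𝓞 M) (I := Q), h, map_pow]

/-- Outside the inertia, a prime is unramified. -/
theorem unram_of_conj {P : Ideal (𝓞 M)} (hP : P.IsMaximal)
    (h : ∀ Q : Ideal (𝓞 L), Q.IsMaximal → upI T P ≤ Q → conjI T Q = Q →
      ∃ x : 𝓞 L, T.cO x - x ∉ Q) : T.ringData.Unram P := by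
  have := hP
  obtain ⟨Q, hQ, hle⟩ := exists_over T P hP
  have := hQ.isPrime
  by_cases hne : conjI T Q = Q
  swap
  · show (upI T P).IsRadical
    rw [(split_data T hP hQ hle hne).1, Ideal.mul_eq_inf_of_coprime
      (hQ.coprime_of_ne (isMaximal_conjI T hQ) (Ne.symm hne))]
    exact Ideal.IsRadical.inf hQ.isPrime.isRadical (isMaximal_conjI T hQ).isPrime.isRadical
  obtain ⟨x, hx⟩ := h Q hQ hle hne
  by_contra hu
  obtain ⟨K, hK⟩ := Ideal.dvd_iff_le.mpr hle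
  have hKtop : K ≠ ⊤ := fun hK' => hu (by
    show (upI T P).IsRadical
    rw [hK, hK', Ideal.mul_top]; exact hQ.isPrime.isRadical)
  obtain ⟨Q', hQ', hKQ'⟩ := Ideal.exists_le_maximal K hKtop
  have hle' : upI T P ≤ Q' := (hK.le.trans Ideal.mul_le_right : upI T P ≤ K).trans hKQ'
  have hQQ : upI T P ≤ Q * Q := by
    rcases eq_or_eq_of_over T hP hQ hle hQ' hle' with h' | h'
    · rw [hK]; exact Ideal.mul_mono le_rfl (h' ▸ hKQ')
    · rw [hK]; exact Ideal.mul_mono le_rfl ((h'.trans hne) ▸ hKQ')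
  obtain ⟨a, ha1, -, ha⟩ := exists_relNorm_pow T hP hQ hle
  have hN := Ideal.relNorm_mono (𝓞 M) hQQ
  rw [relNorm_up T, map_mul, ha, ← pow_add, ← Ideal.dvd_iff_le] at hN
  have ha' : a = 1 := by
    have := (pow_dvd_pow_iff (maximal_ne_bot hP)
      (fun hu => hP.ne_top (Ideal.isUnit_iff.mp hu))).mp hN
    omega
  subst ha'
  have : Finite (𝓞 M ⧸ P) := Ideal.finiteQuotientOfFreeOfNeBot P (maximal_ne_bot hP)
  have hQ0 : Q ≠ ⊥ := Ring.ne_bot_of_isMaximal_of_not_isField hQ (RingOfIntegers.not_isField L)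
  have : Finite (𝓞 L ⧸ Q) := Ideal.finiteQuotientOfFreeOfNeBot Q hQ0
  have hinj : Function.Injective (Ideal.quotientMap (I := P) Q (algebraMap (𝓞 M) (𝓞 L))
      (comap_eq_of_up_le T hP hQ hle).ge) :=
    Ideal.quotientMap_injective' (comap_eq_of_up_le T hP hQ hle).le
  have hcard : Nat.card (𝓞 M ⧸ P) = Nat.card (𝓞 L ⧸ Q) := by
    have e := absNorm_eq_of_relNorm T ha
    rw [pow_one, Ideal.absNorm_apply, Ideal.absNorm_apply, Submodule.cardQuot_apply,
      Submodule.cardQuot_apply] at e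
    exact e.symm
  obtain ⟨u, hu'⟩ := ((Nat.bijective_iff_injective_and_card _).mpr ⟨hinj, hcard⟩).2
    (Ideal.Quotient.mk Q x)
  obtain ⟨v, rfl⟩ := Ideal.Quotient.mk_surjective u
  rw [Ideal.quotientMap_mk, Ideal.Quotient.eq] at hu'
  refine hx ?_
  have h2 : T.cO (algebraMap (𝓞 M) (𝓞 L) v - x) ∈ Q := by
    rw [← hne]; exact Ideal.mem_map_of_mem _ hu'
  rw [map_sub, T.cO.commutes] at h2
  have := sub_mem hu' h2
  rwa [show algebraMap (𝓞 M) (𝓞 L) v - x - (algebraMap (𝓞 M) (𝓞 L) v - T.cO x)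
    = T.cO x - x by ring] at this

/-- A prime dividing a relative norm has a prime above it dividing the ideal. -/
theorem exists_dvd_of_dvd_relNorm {P : Ideal (𝓞 M)} (hP : P.IsMaximal) :
    ∀ B : Ideal (𝓞 L), B ≠ ⊥ → P ∣ Ideal.relNorm (𝓞 M) B →
      ∃ Q : Ideal (𝓞 L), Q.IsMaximal ∧ upI T P ≤ Q ∧ Q ∣ B := by
  intro B
  induction B using UniqueFactorizationMonoid.induction_on_prime with
  | h₁ => exact fun h _ => absurd rfl h
  | h₂ B hB =>
    intro _ h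
    rw [Ideal.isUnit_iff.mp hB, Ideal.relNorm_top, Ideal.dvd_iff_le, top_le_iff] at h
    exact absurd h hP.ne_top
  | h₃ B Q hB hQ ih =>
    intro _ h
    rw [map_mul] at h
    rcases (Ideal.prime_of_isPrime (maximal_ne_bot hP) hP.isPrime).dvd_or_dvd h with h1 | h1
    · have hQm : Q.IsMaximal := (Ideal.isPrime_of_prime hQ).isMaximal hQ.ne_zero
      have := hQm.isPrime
      have : Q.LiesOver (Q.under (𝓞 M)) := ⟨rfl⟩
      have hum : (Q.under (𝓞 M)).IsMaximal :=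
        Ideal.IsMaximal.under (𝓞 M) Q
      have := hum.isPrime
      obtain ⟨a, ha⟩ := Ideal.exists_relNorm_eq_pow_of_isPrime Q (Q.under (𝓞 M))
      rw [ha] at h1
      have h2 := (Ideal.prime_of_isPrime (maximal_ne_bot hP) hP.isPrime).dvd_of_dvd_pow h1
      have h3 : Q.under (𝓞 M) = P :=
        hum.eq_of_le hP.ne_top (Ideal.dvd_iff_le.mp h2)
      exact ⟨Q, hQm, Ideal.map_le_iff_le_comap.mpr h3.ge, dvd_mul_right _ _⟩
    · obtain ⟨Q', hQ', hle, hdvd⟩ := ih hB h1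
      exact ⟨Q', hQ', hle, hdvd.mul_left _⟩

/-- The primes of the relative different are ramified. -/
theorem not_unram_of_dvd_diffR {Q : Ideal (𝓞 L)} (hQ : Q.IsMaximal) (h : Q ∣ T.diffR) :
    ¬ T.ringData.Unram (Q.under (𝓞 M)) := by
  intro hu
  have := hQ
  have := T.finiteDimensional
  set P := Q.under (𝓞 M) with hPdef
  have hP : P.IsMaximal := Ideal.IsMaximal.under (𝓞 M) Q
  have : Q.LiesOver P := ⟨rfl⟩
  have hle : upI T P ≤ Q := Ideal.map_comap_le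
  let : Field (𝓞 M ⧸ P) := Ideal.Quotient.field P
  have : Finite (𝓞 M ⧸ P) := Ideal.finiteQuotientOfFreeOfNeBot P (maximal_ne_bot hP)
  have : Module.Finite (𝓞 M ⧸ P) (𝓞 L ⧸ Q) :=
    Module.Finite.of_restrictScalars_finite (𝓞 M) _ _
  have : Algebra.IsAlgebraic (𝓞 M ⧸ P) (𝓞 L ⧸ Q) := Algebra.IsAlgebraic.of_finite _ _
  have : Algebra.IsSeparable (𝓞 M ⧸ P) (𝓞 L ⧸ Q) :=
    letI : Field (𝓞 L ⧸ Q) := Ideal.Quotient.field Q
    haveI : PerfectField (𝓞 M ⧸ P) := PerfectField.ofFinite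
    Algebra.IsAlgebraic.isSeparable_of_perfectField
  by_cases hne : conjI T Q = Q
  · refine not_dvd_differentIdeal_of_isCoprime_of_isSeparable (𝓞 M) (p := P) Q ⊤
      (Ideal.isCoprime_iff_sup_eq.mpr (sup_top_eq _)) ?_ h
    rw [Ideal.mul_top]
    exact (inert_data T hP hu hQ hle hne).1.symm
  · exact not_dvd_differentIdeal_of_isCoprime_of_isSeparable (𝓞 M) (p := P) Q (conjI T Q)
      (Ideal.isCoprime_iff_sup_eq.mpr (hQ.coprime_of_ne (isMaximal_conjI T hQ) (Ne.symm hne)))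
      (split_data T hP hQ hle hne).1.symm h

end FLTAgent.LanglandsTunnell.SeedCoeff
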