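import Fermat.Agent.LanglandsTunnell.SeedCoeff.Field
import Fermat.Agent.LanglandsTunnell.SeedCoeff.Primes
import Fermat.Agent.LanglandsTunnell.CFT.Crossing
import Fermat.Agent.LanglandsTunnell.CFT.LocalInput
import Fermat.Agent.LanglandsTunnell.Interfaces
import Fermat.Agent.LanglandsTunnell.BadPrimes

/-!
# Inertia and Frobenius elements of the quadratic extension

Outside the modulus `seedModulus` inertia acts trivially (`rho_inertia`) and `L` is unramified
(`unram_seed`); `frob_split` and `frob_inert` describe Frobenius at split and inert primes, and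
`seedEigen` gives the eigenvalues of the seed.  Used to prove the properties of the seed character.
-/

set_option autoImplicit false

noncomputable section

namespace FLTAgent.LanglandsTunnell.SeedCoeff

open FLTAgent.LanglandsTunnell FLTAgent.LanglandsTunnell.Seed NumberField
open FLTAgent.LanglandsTunnell.CFT (PlaceOver)
open FLTAgent.Density FLTAgent.ExtVanishing
open scoped Pointwise

variable (D : Datum)

/-- Every inertia group over three fixes a line. -/
def AllLine : Prop := ∀ A : ValuationSubring QB, A.LiesOverPrime 3 → LineShape D.ρ A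

open scoped Classical in
/-- The product of the primes of the modulus: the bad primes, and three unless every inertia group
over three fixes a line. -/
def seedBase : ℕ := (if AllLine D then 1 else 3) * D.badPart

theorem seedBase_ne_zero : seedBase D ≠ 0 :=
  mul_ne_zero (by split_ifs <;> norm_num) D.badPart_ne_zero

theorem dvd_seedBase {q : ℕ} (h : D.IsBad q) : q ∣ seedBase D :=
  (D.dvd_badPart h).trans (dvd_mul_left _ _)

theorem three_dvd_seedBase (h : ¬ AllLine D) : 3 ∣ seedBase D := by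
  rw [seedBase, if_neg h]
  exact dvd_mul_right _ _

/-- The modulus of the seed, up to multiplicity. -/
def seedModulus : Ideal (𝓞 D.M) := Ideal.span {(seedBase D : 𝓞 D.M)}

theorem seedModulus_ne_bot : seedModulus D ≠ ⊥ := by
  simp [seedModulus, seedBase_ne_zero D]

theorem seedModulus_map (σ : 𝓞 D.M ≃+* 𝓞 D.M) :
    (seedModulus D).map (σ : 𝓞 D.M →+* 𝓞 D.M) = seedModulus D := by
  rw [seedModulus, Ideal.map_span, Set.image_singleton, map_natCast]

/-- Inertia acts trivially outside the modulus. -/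
theorem rho_inertia {w : Ideal (𝓞 D.M)} [w.IsPrime] (hw : w ≠ ⊥)
    (hws : w ⊔ seedModulus D = ⊤) {A : ValuationSubring QB} (hA : PlaceOver A w) {σ : GQ}
    (hσ : σ ∈ A.inertiaSubgroupIn ℚ) (hσM : σ ∈ D.galM) : D.ρ σ = 1 := by
  obtain ⟨q, hq, hqw, -, -, -, hlies⟩ :=
    LanglandsTunnell.CFT.PlaceOver.absNorm_eq_pow (A := A) hw
  have hAq := hlies hA
  have key : ¬ q ∣ seedBase D := by
    rintro ⟨c, hc⟩
    refine (inferInstance : w.IsPrime).ne_top (top_le_iff.mp (hws ▸ sup_le le_rfl ?_))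
    refine (Ideal.span_singleton_le_iff_mem _).mpr ?_
    rw [hc, Nat.cast_mul]
    exact Ideal.mul_mem_right _ _ hqw
  by_cases h3 : q = 3
  · subst h3
    by_cases hline : AllLine D
    · exact eq_one_of_inQ8 ((mem_galM D).mp hσM) (Or.inr (hline A hAq σ hσ))
    · exact absurd (three_dvd_seedBase D hline) key
  · by_contra hne
    exact key (dvd_seedBase D ⟨hq, h3, A, hAq, σ, hσ, hσM, hne⟩)

theorem restrictL_eq_conjL {h : GQ} (hh : h ∈ D.galM) (hL : h ∉ galL D) :
    restrictL D hh = conjL D := by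
  classical
  have : FiniteDimensional D.M (fieldL D) := Module.Finite.of_restrictScalars_finite ℚ _ _
  by_contra hne
  have hne1 : restrictL D hh ≠ 1 := by
    intro h1
    refine hL ?_
    rw [← fixingSubgroup_fieldL, IntermediateField.mem_fixingSubgroup_iff]
    intro x hx
    exact congrArg Subtype.val (DFunLike.congr_fun h1 (⟨x, hx⟩ : fieldL D))
  have hcard : Fintype.card (fieldL D ≃ₐ[D.M] fieldL D) ≤ 2 := by
    rw [← finrank_ML D]; exact AlgEquiv.card_le
  have h3 : ({1, conjL D, restrictL D hh} : Finset (fieldL D ≃ₐ[D.M] fieldL D)).card = 3 := by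
    rw [Finset.card_insert_of_notMem, Finset.card_pair (Ne.symm hne)]
    simp [(conjL_ne_one D).symm, hne1.symm]
  have := Finset.card_le_univ ({1, conjL D, restrictL D hh} : Finset (fieldL D ≃ₐ[D.M] fieldL D))
  omega

variable {D} (P : ExtPlaces D)

theorem coe_cO_eq {h : GQ} (hh : h ∈ D.galM) (hL : h ∉ galL D) (x : 𝓞 (fieldL D)) :
    ((((seedSetting P).cO x : 𝓞 (fieldL D)) : fieldL D) : QB) = h ((x : fieldL D) : QB) := by
  have e : (((seedSetting P).cO x : 𝓞 (fieldL D)) : fieldL D) = conjL D (x : fieldL D) :=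
    (seedSetting P).coe_cO x
  rw [e, ← restrictL_eq_conjL D hh hL]
  rfl

theorem mem_conjI {Q : Ideal (𝓞 (fieldL D))} {x : 𝓞 (fieldL D)} :
    x ∈ conjI (seedSetting P) Q ↔ (seedSetting P).cO x ∈ Q := by
  constructor
  · intro hx
    have := Ideal.mem_map_of_mem ((seedSetting P).cO : 𝓞 (fieldL D) →+* 𝓞 (fieldL D)) hx
    rwa [(seedSetting P).map_cO_cO] at this
  · intro hx
    have := Ideal.mem_map_of_mem ((seedSetting P).cO : 𝓞 (fieldL D) →+* 𝓞 (fieldL D)) hx
    have e : ((seedSetting P).cO : 𝓞 (fieldL D) →+* 𝓞 (fieldL D)) ((seedSetting P).cO x) = x :=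
      (seedSetting P).cO_cO x
    rwa [e] at this

theorem placeOver_conjI {h : GQ} (hh : h ∈ D.galM) (hL : h ∉ galL D)
    {Q : Ideal (𝓞 (fieldL D))} {A : ValuationSubring QB} (hA : PlaceOver A Q) :
    PlaceOver (h • A) (conjI (seedSetting P) Q) := by
  intro x
  rw [mem_conjI P, hA, coe_cO_eq P (h := h⁻¹) (D.galM.inv_mem hh)
    (fun h' => hL (inv_mem_iff.mp h'))]
  conv_rhs => rw [show ((x : fieldL D) : QB) = h (h⁻¹ ((x : fieldL D) : QB)) by
    rw [← AlgEquiv.mul_apply, mul_inv_cancel, AlgEquiv.one_apply]]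
  exact (apply_mem_smul_nonunits_iff h _).symm

theorem eq_of_placeOver {F : IntermediateField ℚ QB} {A : ValuationSubring QB}
    {w w' : Ideal (𝓞 F)} (h : PlaceOver A w) (h' : PlaceOver A w') : w = w' :=
  Ideal.ext fun x => (h x).trans (h' x).symm

theorem placeOver_under {Q : Ideal (𝓞 (fieldL D))} {A : ValuationSubring QB}
    (hA : PlaceOver A Q) : PlaceOver A (Q.under (𝓞 D.M)) :=
  hA.under (val_algebraMap D)

theorem under_eq {w : Ideal (𝓞 D.M)} (hw : w.IsMaximal) {Q : Ideal (𝓞 (fieldL D))}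
    (hQ : Q.IsMaximal) (hle : upI (seedSetting P) w ≤ Q) : Q.under (𝓞 D.M) = w :=
  comap_eq_of_up_le (seedSetting P) hw hQ hle

theorem conjI_eq_of_frob {Q : Ideal (𝓞 (fieldL D))} {A : ValuationSubring QB}
    (hA : PlaceOver A Q) {g : GQ} (hgM : g ∈ D.galM) (hgL : g ∉ galL D)
    (hgA : g • A = A) : conjI (seedSetting P) Q = Q :=
  eq_of_placeOver (hgA ▸ placeOver_conjI P hgM hgL hA) hA

/-- Outside the modulus, the extension is unramified. -/
theorem unram_seed {w : Ideal (𝓞 D.M)} (hw : w.IsMaximal) (hws : w ⊔ seedModulus D = ⊤) :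
    (seedSetting P).ringData.Unram w := by
  refine unram_of_conj (seedSetting P) hw fun Q hQ hle heq => ?_
  by_contra hno
  push Not at hno
  have := hQ.isPrime
  have hQ0 : Q ≠ ⊥ := Ring.ne_bot_of_isMaximal_of_not_isField hQ (RingOfIntegers.not_isField _)
  obtain ⟨q, A, hq, -, hAq, hA⟩ := LanglandsTunnell.CFT.exists_placeOver Q hQ0
  have hA' := placeOver_conjI P (outerLift_mem D) (outerLift_notMem D) hA
  rw [heq] at hA'
  obtain ⟨t, ht, htA⟩ := LanglandsTunnell.CFT.exists_smul_eq_of_placeOver hQ0 hA hA'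
  have htL : t ∈ galL D := fixingSubgroup_fieldL D ▸ ht
  set g := t⁻¹ * outerLift D with hg
  have hgM : g ∈ D.galM := mul_mem (inv_mem (galL_le_galM D htL)) (outerLift_mem D)
  have hgL : g ∉ galL D := fun h => outerLift_notMem D (by
    have := mul_mem htL h
    rwa [hg, mul_inv_cancel_left] at this)
  have hgA : g • A = A := by rw [hg, mul_smul, ← htA, inv_smul_smul]
  obtain ⟨m, hm, hI⟩ := ExtVanishing.exists_inv_mul_mem_inertia (F := fieldL D) hq hAq
    (MulAction.mem_stabilizer_iff.mpr hgA) fun y => by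
      rw [mem_primeBelow]
      have h1 := hno y
      rw [hA] at h1
      have h2 := coe_cO_eq P hgM hgL y
      change g ((y : fieldL D) : QB) - ((y : fieldL D) : QB) ∈ A.nonunits
      rw [← h2]
      simpa using h1
  have hmL : m ∈ galL D := fixingSubgroup_fieldL D ▸ hm
  have := hw.isPrime
  have h1 := rho_inertia D (maximal_ne_bot hw) hws
    (under_eq P hw hQ hle ▸ placeOver_under hA) hI
    (mul_mem (inv_mem (galL_le_galM D hmL)) hgM)
  refine hgL ?_
  have h2 : m⁻¹ * g ∈ galL D := ker_le_galL D (MonoidHom.mem_ker.mpr h1)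
  simpa using mul_mem hmL h2

variable (D) in
/-- All Frobenius elements over an unramified prime have the same trace. -/
theorem trLift_eq_of_isFrobOver {w : Ideal (𝓞 D.M)} [w.IsPrime] (hw : w ≠ ⊥)
    (hws : w ⊔ seedModulus D = ⊤) {g g' : GQ} (hg : IsFrobOver D.M w g)
    (hg' : IsFrobOver D.M w g') : trLift (D.ρ g') = trLift (D.ρ g) := by
  obtain ⟨hgM, A, hA, hAg⟩ := hg
  obtain ⟨hg'M, A', hA', hAg'⟩ := hg'
  obtain ⟨h, hh, rfl⟩ := LanglandsTunnell.CFT.exists_smul_eq_of_placeOver hw hA hA'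
  rw [fixingSubgroup_M] at hgM hg'M hh
  have hI := inv_mul_mem_inertiaSubgroupIn (isFrobeniusAt_smul hAg h) hAg'
  have h1 := rho_inertia D hw hws hA' hI
    (mul_mem (inv_mem (mul_mem (mul_mem hh hgM) (inv_mem hh))) hg'M)
  rw [map_mul, map_inv, inv_mul_eq_one, map_mul, map_mul, map_inv] at h1
  rw [← h1, trLift_conj]

open scoped Classical in
variable (D) in
/-- The eigenvalues of the seed. -/
def seedEigen (w : Ideal (𝓞 D.M)) : ℂ :=
  if h : ∃ g, IsFrobOver D.M w g then trLift (D.ρ h.choose) else 0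

variable (D) in
theorem seedEigen_eq {w : Ideal (𝓞 D.M)} [w.IsPrime] (hw : w ≠ ⊥)
    (hws : w ⊔ seedModulus D = ⊤) {g : GQ} (hg : IsFrobOver D.M w g) :
    seedEigen D w = trLift (D.ρ g) := by
  have h : ∃ g, IsFrobOver D.M w g := ⟨g, hg⟩
  rw [seedEigen, dif_pos h]
  exact trLift_eq_of_isFrobOver D hw hws hg h.choose_spec

variable (D) in
theorem seedEigen_map (σ : D.M ≃ₐ[ℚ] D.M) {w : Ideal (𝓞 D.M)} (hw : w.IsMaximal)
    (hws : w ⊔ seedModulus D = ⊤) :
    seedEigen D (w.map ((RingOfIntegers.mapRingEquiv σ.toRingEquiv : 𝓞 D.M ≃+* 𝓞 D.M) :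
      𝓞 D.M →+* 𝓞 D.M)) = seedEigen D w := by
  have := hw.isPrime
  set e : 𝓞 D.M ≃+* 𝓞 D.M := RingOfIntegers.mapRingEquiv σ.toRingEquiv with he
  set w' := w.map (e : 𝓞 D.M →+* 𝓞 D.M) with hw'
  have hmax : w'.IsMaximal := Ideal.map_isMaximal_of_equiv e
  have := hmax.isPrime
  obtain ⟨g, hg⟩ := LanglandsTunnell.CFT.exists_isFrobOver (maximal_ne_bot hw)
  obtain ⟨hgM, A, hA, hAg⟩ := hg
  have := WeightOneWiring.isGalois_QB
  let t : GQ := AlgEquiv.liftNormal σ QB
  have hlift : ∀ x : D.M, t (x : QB) = ((σ x : D.M) : QB) := fun x =>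
    AlgEquiv.liftNormal_commutes σ QB x
  have hN : Ideal.absNorm w' = Ideal.absNorm w := by
    simp only [Ideal.absNorm_apply, Submodule.cardQuot_apply]
    exact (Nat.card_congr (Ideal.quotientEquiv w w' e rfl).toEquiv).symm
  have hA' : PlaceOver (t • A) w' := by
    intro x
    have h1 : x ∈ w' ↔ e.symm x ∈ w := by
      rw [hw', Ideal.mem_map_iff_of_surjective (e : 𝓞 D.M →+* 𝓞 D.M) e.surjective]
      exact ⟨fun ⟨y, hy, hyx⟩ => by simpa [← hyx] using hy, fun h => ⟨_, h, by simp⟩⟩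
    have h2 : t (((e.symm x : 𝓞 D.M) : D.M) : QB) = ((x : D.M) : QB) := by
      rw [hlift]
      exact congrArg Subtype.val (σ.apply_symm_apply (x : D.M))
    rw [h1, hA, ← h2]
    exact (apply_mem_smul_nonunits_iff t _).symm
  have hfrob : IsFrobOver D.M w' (t * g * t⁻¹) := by
    refine ⟨?_, t • A, hA', hN.symm ▸ isFrobeniusAt_smul hAg t⟩
    rw [fixingSubgroup_M] at hgM ⊢
    exact conj_mem_galM D t hgM
  have hws' : w' ⊔ seedModulus D = ⊤ := by
    rw [hw', ← seedModulus_map D e, ← Ideal.map_sup, hws, Ideal.map_top]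
  rw [seedEigen_eq D (maximal_ne_bot hmax) hws' hfrob,
    seedEigen_eq D (maximal_ne_bot hw) hws ⟨hgM, A, hA, hAg⟩, map_mul, map_mul, map_inv,
    trLift_conj]

/-- The Frobenius data at a split prime. -/
theorem frob_split {w : Ideal (𝓞 D.M)} (hw : w.IsMaximal) {Q : Ideal (𝓞 (fieldL D))}
    (hQ : Q.IsMaximal) (hle : upI (seedSetting P) w ≤ Q)
    (hne : conjI (seedSetting P) Q ≠ Q) :
    ∃ g, IsFrobOver D.M w g ∧ g ∈ galL D ∧ IsFrobOver (fieldL D) Q g ∧
      IsFrobOver (fieldL D) (conjI (seedSetting P) Q) (outerLift D * g * (outerLift D)⁻¹) := by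
  have := hQ.isPrime
  have := hw.isPrime
  obtain ⟨-, A, -, -, -, hA⟩ := LanglandsTunnell.CFT.exists_placeOver Q
    (Ring.ne_bot_of_isMaximal_of_not_isField hQ (RingOfIntegers.not_isField _))
  have hAw : PlaceOver A w := under_eq P hw hQ hle ▸ placeOver_under hA
  obtain ⟨g, hg, hgA⟩ := LanglandsTunnell.CFT.exists_frobenius_over (maximal_ne_bot hw) hAw
  have hgM : g ∈ D.galM := fixingSubgroup_M D ▸ hg
  have hgL : g ∈ galL D := by
    by_contra h
    exact hne (conjI_eq_of_frob P hA hgM h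
      (MulAction.mem_stabilizer_iff.mp (isFrobeniusAt_iff.1 hgA).1))
  have hN := (split_data (seedSetting P) hw hQ hle hne).2
  rw [← pow_one w] at hN
  have hN1 : Ideal.absNorm Q = Ideal.absNorm w := by
    simpa using absNorm_eq_of_relNorm (seedSetting P) hN
  have hN2 : Ideal.absNorm (conjI (seedSetting P) Q) = Ideal.absNorm w := by
    simpa using absNorm_eq_of_relNorm (seedSetting P) ((relNorm_conjI (seedSetting P) Q).trans hN)
  refine ⟨g, ⟨hg, A, hAw, hgA⟩, hgL, ⟨?_, A, hA, hN1 ▸ hgA⟩,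
    ⟨?_, _, placeOver_conjI P (outerLift_mem D) (outerLift_notMem D) hA,
      hN2 ▸ isFrobeniusAt_smul hgA _⟩⟩
  · rw [fixingSubgroup_fieldL]; exact hgL
  · rw [fixingSubgroup_fieldL]; exact conj_mem_galL D (outerLift_mem D) hgL

/-- The Frobenius data at an inert prime. -/
theorem frob_inert {w : Ideal (𝓞 D.M)} (hw : w.IsMaximal) (hws : w ⊔ seedModulus D = ⊤)
    {Q : Ideal (𝓞 (fieldL D))}
    (hQ : Q.IsMaximal) (hle : upI (seedSetting P) w ≤ Q)
    (heq : conjI (seedSetting P) Q = Q) :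
    ∃ g, IsFrobOver D.M w g ∧ g ∉ galL D ∧ IsFrobOver (fieldL D) Q (g * g) := by
  have := hQ.isPrime
  have := hw.isPrime
  have hQ0 : Q ≠ ⊥ := Ring.ne_bot_of_isMaximal_of_not_isField hQ (RingOfIntegers.not_isField _)
  obtain ⟨-, A, -, -, -, hA⟩ := LanglandsTunnell.CFT.exists_placeOver Q hQ0
  have hAw : PlaceOver A w := under_eq P hw hQ hle ▸ placeOver_under hA
  obtain ⟨g, hg, hgA⟩ := LanglandsTunnell.CFT.exists_frobenius_over (maximal_ne_bot hw) hAw
  have hgM : g ∈ D.galM := fixingSubgroup_M D ▸ hg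
  have hN := absNorm_eq_of_relNorm (seedSetting P)
    (inert_data (seedSetting P) hw (unram_seed P hw hws) hQ hle heq).2
  have hN1 : 1 < Ideal.absNorm w := by
    have h0 : Ideal.absNorm w ≠ 0 := fun e =>
      maximal_ne_bot hw (Ideal.absNorm_eq_zero_iff.1 e)
    have h1 : Ideal.absNorm w ≠ 1 := fun e => hw.ne_top (Ideal.absNorm_eq_one_iff.1 e)
    omega
  have hgL : g ∉ galL D := by
    intro hgL
    have hle' : Ideal.absNorm Q ≤ Ideal.absNorm w := by
      refine LanglandsTunnell.CFT.absNorm_le_of_pow_sub_mem hQ0 hN1 fun y => ?_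
      rw [hA]
      have hyA : ((y : fieldL D) : QB) ∈ A :=
        mem_of_isIntegral A ((y.isIntegral_coe).map ((fieldL D).val.restrictScalars ℤ))
      have h := (isFrobeniusAt_iff.1 hgA).2 ((y : fieldL D) : QB) hyA
      rw [show g ((y : fieldL D) : QB) = ((y : fieldL D) : QB) from
        ((fixingSubgroup_fieldL D).symm ▸ hgL : g ∈ (fieldL D).fixingSubgroup) (y : fieldL D)] at h
      have h' : ((y : fieldL D) : QB) ^ Ideal.absNorm w - ((y : fieldL D) : QB) ∈ A.nonunits := by
        rw [← neg_sub, ValuationSubring.mem_nonunits_iff, Valuation.map_neg]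
        exact A.mem_nonunits_iff.1 h
      simpa using h'
    rw [hN] at hle'
    nlinarith [hle', hN1]
  refine ⟨g, ⟨hg, A, hAw, hgA⟩, hgL, ?_, A, hA, ?_⟩
  · rw [fixingSubgroup_fieldL, mem_galL, map_mul,
      (outside_facts ((mem_galM D).mp hgM) hgL).2.1]
    exact inC4_neg_one
  · rw [hN, ← pow_two]
    exact LanglandsTunnell.CFT.isFrobeniusAt_pow hgA 2

end FLTAgent.LanglandsTunnell.SeedCoeff
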