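import Fermat.Agent.LanglandsTunnell.SeedCoeff.Coefficient
import Fermat.Agent.LanglandsTunnell.Seed.Unfold

/-!
# The series of the seed as a Fourier expansion over the field

The terms are grouped by the element `β`; the coefficient only depends on the ideal `β Y 𝔡`.
`hasSum_series` gives the expansion for a seed system linked to its character (`CharLink`), the
starting point of the Hecke and Galois properties of the series.
-/

set_option autoImplicit false

noncomputable section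

namespace FLTAgent.LanglandsTunnell.SeedCoeff

open FLTAgent.LanglandsTunnell FLTAgent.LanglandsTunnell.Seed NumberField Complex
open scoped Real nonZeroDivisors

variable {M L ι : Type} [Field M] [NumberField M] [Field L] [NumberField L] [Algebra M L]
  [Fintype ι]

/-- The extension of the relative norm is the product with the conjugate. -/
theorem up_relNorm (T : Setting M L ι) (I : Ideal (𝓞 L)) :
    upI T (Ideal.relNorm (𝓞 M) I) = I * conjI T I := by
  by_cases hI : I = ⊥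
  · subst hI
    rw [Ideal.relNorm_bot, upI, Ideal.map_bot, Ideal.bot_mul]
  have hle : upI T (Ideal.relNorm (𝓞 M) I) ≤ I * conjI T I := by
    rw [upI, Ideal.map_relNorm, Ideal.span_le]
    rintro _ ⟨x, hx, rfl⟩
    show algebraMap (𝓞 M) (𝓞 L) (Algebra.intNorm (𝓞 M) (𝓞 L) x) ∈ I * conjI T I
    rw [T.algebraMap_intNorm']
    exact Ideal.mul_mem_mul hx (Ideal.mem_map_of_mem _ hx)
  obtain ⟨K, hK⟩ := Ideal.dvd_iff_le.mpr hle
  have h0 : I * conjI T I ≠ ⊥ := mul_ne_zero hI fun h =>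
    hI ((Ideal.map_eq_bot_iff_of_injective T.cO.injective).mp h)
  have hN := congrArg (Ideal.relNorm (𝓞 M)) hK
  rw [relNorm_up T, map_mul, map_mul, relNorm_conjI T, ← sq] at hN
  have hK1 : Ideal.relNorm (𝓞 M) K = ⊤ := by
    refine mul_left_cancel₀ (pow_ne_zero 2 (fun h => hI (Ideal.relNorm_eq_bot_iff.mp h) :
      Ideal.relNorm (𝓞 M) I ≠ 0)) ?_
    rw [← hN, Ideal.mul_top]
  rw [hK, eq_top_of_relNorm_eq_top T hK1, Ideal.mul_top]

theorem map_relNorm_eq (T : Setting M L ι) (I : Ideal (𝓞 L)) :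
    (Ideal.relNorm (𝓞 M) I).map (algebraMap (𝓞 M) (𝓞 L)) =
      I * I.map (T.cO : 𝓞 L →+* 𝓞 L) :=
  up_relNorm T I

/-- The data of a seed system and its character agree. -/
structure CharLink (S : SeedSys M L ι) (C : SeedChar S.T) : Prop where
  psi : S.ψ = C.ψ
  modulus : C.s = Ideal.span {(S.s : 𝓞 M)}

theorem cop_iff {S : SeedSys M L ι} {C : SeedChar S.T} (hl : CharLink S C) (B : Ideal (𝓞 L)) :
    Cop S.s B ↔ B ≠ ⊥ ∧ PrimeTo S.T C.s B := by
  rw [PrimeTo, hl.modulus, upI, Ideal.map_span, Set.image_singleton, map_natCast]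
  rfl

open scoped Classical in
/-- The coefficient at a fractional ideal, zero outside the integral ones. -/
def fracCoef {T : Setting M L ι} (C : SeedChar T) (I : FractionalIdeal (𝓞 M)⁰ M) : ℂ :=
  if h : ∃ m : Ideal (𝓞 M), m ≠ ⊥ ∧ (m : FractionalIdeal (𝓞 M)⁰ M) = I then C.coef h.choose else 0

theorem fracCoef_coe {T : Setting M L ι} (C : SeedChar T) {m : Ideal (𝓞 M)} (hm : m ≠ ⊥) :
    fracCoef C (m : FractionalIdeal (𝓞 M)⁰ M) = C.coef m := by
  have h : ∃ m' : Ideal (𝓞 M), m' ≠ ⊥ ∧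
      (m' : FractionalIdeal (𝓞 M)⁰ M) = (m : FractionalIdeal (𝓞 M)⁰ M) := ⟨m, hm, rfl⟩
  rw [fracCoef, dif_pos h, FractionalIdeal.coeIdeal_injective h.choose_spec.2]

theorem fracCoef_eq_zero {T : Setting M L ι} (C : SeedChar T) {I : FractionalIdeal (𝓞 M)⁰ M}
    (h : ¬ I ≤ 1) : fracCoef C I = 0 := by
  rw [fracCoef, dif_neg]
  rintro ⟨m, -, rfl⟩
  exact h FractionalIdeal.coeIdeal_le_one

/-- The ideal attached to an element at `Y`. -/
def betaIdeal (S : SeedSys M L ι) (Y : FractionalIdeal (𝓞 M)⁰ M) (β : M) :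
    FractionalIdeal (𝓞 M)⁰ M :=
  FractionalIdeal.spanSingleton (𝓞 M)⁰ β * Y * (S.T.diffM : FractionalIdeal (𝓞 M)⁰ M)

/-- The coefficient of the series at an element. -/
def seriesCoef (S : SeedSys M L ι) (C : SeedChar S.T) (Y : FractionalIdeal (𝓞 M)⁰ M) (β : M) : ℂ :=
  fracCoef C (betaIdeal S Y β)

variable {S : SeedSys M L ι} {C : SeedChar S.T} (hl : CharLink S C)
  (Y : FractionalIdeal (𝓞 M)⁰ M)

theorem relNorm_eq_of_term {B : Ideal (𝓞 L)} {β : M} (h : S.IsTerm Y B β) :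
    ((Ideal.relNorm (𝓞 M) B : Ideal (𝓞 M)) : FractionalIdeal (𝓞 M)⁰ M) = betaIdeal S Y β := by
  refine S.T.EL_injective ?_
  rw [S.T.EL_coeIdeal, map_relNorm_eq S.T, FractionalIdeal.coeIdeal_mul, betaIdeal, map_mul,
    map_mul, S.T.EL_spanSingleton]
  exact h.2.2.symm

include hl

theorem term_iff {B : Ideal (𝓞 L)} {β : M} {m : Ideal (𝓞 M)} (hm : m ≠ ⊥)
    (h : (m : FractionalIdeal (𝓞 M)⁰ M) = betaIdeal S Y β) :
    S.IsTerm Y B β ↔ B ∈ C.coefSet m := by
  constructor
  · intro ht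
    exact ⟨FractionalIdeal.coeIdeal_injective ((relNorm_eq_of_term Y ht).trans h.symm),
      ((cop_iff hl B).mp ht.1).2⟩
  · rintro ⟨hN, hs⟩
    have hB : B ≠ ⊥ := fun e => hm (by rw [← hN, e, Ideal.relNorm_bot])
    have hβ : β ≠ 0 := by
      rintro rfl
      rw [betaIdeal, FractionalIdeal.spanSingleton_zero, zero_mul, zero_mul,
        FractionalIdeal.coeIdeal_eq_zero] at h
      exact hm h
    refine ⟨(cop_iff hl B).mpr ⟨hB, hs⟩, hβ, ?_⟩
    have h1 := congrArg S.T.EL h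
    rw [← hN, S.T.EL_coeIdeal, map_relNorm_eq S.T, FractionalIdeal.coeIdeal_mul, betaIdeal, map_mul,
      map_mul, S.T.EL_spanSingleton] at h1
    exact h1.symm

omit hl in
theorem summable_termW_mul (P : ι → H3) :
    Summable fun t : S.Term Y => S.ψ t.1.1 * S.termW t.1.2 P := by
  obtain ⟨c, hc, hP⟩ : ∃ c : ℝ, 0 < c ∧ ∀ i, c ≤ (P i).t := by
    rcases isEmpty_or_nonempty ι with h | h
    · exact ⟨1, one_pos, fun i => isEmptyElim i⟩
    · obtain ⟨i, hi⟩ := Finite.exists_min fun i => (P i).t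
      exact ⟨_, (P i).t_pos, hi⟩
  obtain ⟨U, hU, hb⟩ := S.exists_termW_bound Y hc
  refine Summable.of_norm_bounded hU fun t => ?_
  rw [norm_mul, S.norm_psi _ t.2.1, one_mul]
  exact hb t P hP

/-- The series is the Fourier expansion with the coefficients of the character. -/
theorem hasSum_series (P : ι → H3) :
    HasSum (fun β : M => seriesCoef S C Y β * S.termW β P) (S.series Y P) := by
  let e : S.Term Y ≃ Σ β : M, {B : Ideal (𝓞 L) // S.IsTerm Y B β} :=
    { toFun := fun t => ⟨t.1.2, t.1.1, t.2⟩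
      invFun := fun q => ⟨(q.2.1, q.1), q.2.2⟩
      left_inv := fun _ => rfl
      right_inv := fun _ => rfl }
  have hs := (summable_termW_mul (S := S) Y P).hasSum
  rw [← SeedSys.series, ← e.symm.hasSum_iff] at hs
  refine hs.sigma fun β => ?_
  show HasSum (fun B : {B : Ideal (𝓞 L) // S.IsTerm Y B β} => S.ψ B.1 * S.termW β P) _
  by_cases hex : ∃ m : Ideal (𝓞 M), m ≠ ⊥ ∧ (m : FractionalIdeal (𝓞 M)⁰ M) = betaIdeal S Y β
  · obtain ⟨m, hm, hmβ⟩ := hex
    refine HasSum.mul_right _ ?_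
    rw [seriesCoef, ← hmβ, fracCoef_coe C hm, SeedChar.coef, hl.psi]
    have hfin := C.finite_coefSet hm
    have : Fintype (C.coefSet m) := hfin.fintype
    rw [finsum_mem_eq_toFinset_sum, ← Finset.sum_set_coe]
    exact (Equiv.subtypeEquivRight fun B => term_iff hl Y hm hmβ).hasSum_iff.mpr
      (hasSum_fintype fun B : C.coefSet m => C.ψ B)
  · have : IsEmpty {B : Ideal (𝓞 L) // S.IsTerm Y B β} := ⟨fun B =>
      hex ⟨_, fun h => B.2.1.1 (Ideal.relNorm_eq_bot_iff.mp h), relNorm_eq_of_term Y B.2⟩⟩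
    rw [seriesCoef, fracCoef, dif_neg hex, zero_mul]
    exact hasSum_empty

end FLTAgent.LanglandsTunnell.SeedCoeff
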