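import Fermat.Agent.LanglandsTunnell.SeedCoeff.Series

/-!
# The Hecke relation of the normalised series

`form_hecke`: the sum over the residues modulo a prime `w` outside the modulus plus the remaining
term is `√N(w) a(w)` times the series, by the recursion of the coefficients and orthogonality of
the additive characters.  Used for the eigenfunction property in `LanglandsTunnell.SeedCoeff.Glue`.
-/

set_option autoImplicit false

noncomputable section

namespace FLTAgent.LanglandsTunnell.SeedCoeff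

open FLTAgent.LanglandsTunnell FLTAgent.LanglandsTunnell.Seed NumberField Complex
open scoped Real nonZeroDivisors

variable {M L ι : Type} [Field M] [NumberField M] [Field L] [NumberField L] [Algebra M L]
  [Fintype ι]

theorem expM_eq_one_of_mem_inv (T : Setting M L ι) {m : M}
    (h : m ∈ (T.diffM : FractionalIdeal (𝓞 M)⁰ M)⁻¹) : expM T.Φ m = 1 := by
  obtain ⟨k, hk⟩ := T.mem_inv_diffM_iff.mp h 1
  exact (expM_eq_one_iff T.Φ m).mpr ⟨k, by simpa using hk⟩

variable {S : SeedSys M L ι}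

theorem termW_translate {β κ : M} {P Q : ι → H3} (hz : ∀ i, (Q i).z = (P i).z + S.T.Φ.emb i κ)
    (ht : ∀ i, (Q i).t = (P i).t) :
    S.termW β Q = expM S.T.Φ (β * κ) * S.termW β P := by
  rw [SeedSys.termW, SeedSys.termW, expM_eq_prod, ← Finset.prod_mul_distrib]
  refine Finset.prod_congr rfl fun i _ => ?_
  rw [wfun_affine (S.T.Φ.emb i β) (D := 1) (κ := S.T.Φ.emb i κ) (P := P i)
    (by rw [one_mul]; exact hz i) (by rw [norm_one, one_mul]; exact ht i), norm_one, map_mul]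
  simp

theorem expM_mul_eq_one {J : FractionalIdeal (𝓞 M)⁰ M} {β x : M} (hx : x ∈ J)
    (h : betaIdeal S J β ≤ 1) : expM S.T.Φ (β * x) = 1 := by
  refine expM_eq_one_of_mem_inv S.T ((FractionalIdeal.mem_inv_iff S.T.diffM_ne_zero).mpr ?_)
  intro y hy
  exact h (FractionalIdeal.mul_mem_mul
    (FractionalIdeal.mul_mem_mul (FractionalIdeal.mem_spanSingleton_self _ _) hx) hy)

theorem exists_expM_ne_one {J : FractionalIdeal (𝓞 M)⁰ M} {β : M} (h : ¬ betaIdeal S J β ≤ 1) :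
    ∃ x ∈ J, expM S.T.Φ (β * x) ≠ 1 := by
  by_contra hc
  push Not at hc
  refine h ?_
  have hle : FractionalIdeal.spanSingleton (𝓞 M)⁰ β * J ≤
      (S.T.diffM : FractionalIdeal (𝓞 M)⁰ M)⁻¹ := by
    refine FractionalIdeal.mul_le.mpr fun y hy x hx => ?_
    obtain ⟨a, rfl⟩ := (FractionalIdeal.mem_spanSingleton _).mp hy
    rw [S.T.mem_inv_diffM_iff]
    intro u
    rw [← expM_eq_one_iff S.T.Φ]
    have hx' : (u * a) • x ∈ J := Submodule.smul_mem _ _ hx
    have := hc _ hx'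
    rwa [Algebra.smul_def, show β * (algebraMap (𝓞 M) M (u * a) * x) =
      algebraMap (𝓞 M) M u * (a • β * x) by rw [map_mul, Algebra.smul_def]; ring] at this
  calc betaIdeal S J β ≤ (S.T.diffM : FractionalIdeal (𝓞 M)⁰ M)⁻¹ *
        (S.T.diffM : FractionalIdeal (𝓞 M)⁰ M) := mul_le_mul_left hle _
    _ = 1 := inv_mul_cancel₀ S.T.diffM_ne_zero

theorem betaIdeal_mul (J K : FractionalIdeal (𝓞 M)⁰ M) (β : M) :
    betaIdeal S (J * K) β = betaIdeal S J β * K := by
  rw [betaIdeal, betaIdeal]; ring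

/-- The sum of the additive character over residues of `J` modulo `J w`. -/
theorem sum_expM_eq_zero {w : Ideal (𝓞 M)} {J : FractionalIdeal (𝓞 M)⁰ M} {β : M}
    {ρ : Type} [Fintype ρ] {r : ρ → M} (hr : ∀ i, r i ∈ J)
    (hinj : ∀ i j, r i - r j ∈ J * (w : FractionalIdeal (𝓞 M)⁰ M) → i = j)
    (hsurj : ∀ x ∈ J, ∃ i, x - r i ∈ J * (w : FractionalIdeal (𝓞 M)⁰ M))
    (h1 : betaIdeal S (J * (w : FractionalIdeal (𝓞 M)⁰ M)) β ≤ 1)
    (h2 : ¬ betaIdeal S J β ≤ 1) : ∑ i, expM S.T.Φ (β * -(r i)) = 0 := by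
  classical
  obtain ⟨x, hxJ, hne⟩ := exists_expM_ne_one h2
  choose pm hpm using fun i => hsurj (r i - x) (Submodule.sub_mem _ (hr i) hxJ)
  have hbij : Function.Bijective pm := by
    refine Finite.injective_iff_bijective.mp fun i j hij => hinj i j ?_
    have := Submodule.sub_mem _ (hpm i) (hpm j)
    rwa [hij, sub_sub_sub_cancel_right, sub_sub_sub_cancel_right] at this
  have hstep : ∀ i,
      expM S.T.Φ (β * -(r (pm i))) = expM S.T.Φ (β * -(r i)) * expM S.T.Φ (β * x) := by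
    intro i
    rw [show β * -(r (pm i)) = β * (r i - x - r (pm i)) + (β * -(r i) + β * x) by ring, expM_add,
      expM_mul_eq_one (hpm i) h1, one_mul, expM_add]
  have key : ∑ i, expM S.T.Φ (β * -(r i)) =
      (∑ i, expM S.T.Φ (β * -(r i))) * expM S.T.Φ (β * x) := by
    conv_lhs => rw [← hbij.sum_comp]
    simp only [hstep, Finset.sum_mul]
  by_contra h
  exact hne (mul_left_cancel₀ h (key.symm.trans (mul_one _).symm))

variable {C : SeedChar S.T}

/-- The coefficient identity behind the Hecke relation. -/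
theorem hecke_coef {w : Ideal (𝓞 M)} (hw : w.IsMaximal) (hws : w ⊔ C.s = ⊤)
    {J : FractionalIdeal (𝓞 M)⁰ M}
    {ρ : Type} [Fintype ρ] (hcard : Fintype.card ρ = Ideal.absNorm w) {r : ρ → M}
    (hr : ∀ i, r i ∈ J)
    (hinj : ∀ i j, r i - r j ∈ J * (w : FractionalIdeal (𝓞 M)⁰ M) → i = j)
    (hsurj : ∀ x ∈ J, ∃ i, x - r i ∈ J * (w : FractionalIdeal (𝓞 M)⁰ M)) (β : M) :
    seriesCoef S C (J * (w : FractionalIdeal (𝓞 M)⁰ M)) β * ∑ i, expM S.T.Φ (β * -(r i)) +
        (Ideal.absNorm w : ℂ) * seriesCoef S C (J * (w : FractionalIdeal (𝓞 M)⁰ M)⁻¹) β =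
      (Ideal.absNorm w : ℂ) * C.a w * seriesCoef S C J β := by
  have hw0 : (w : FractionalIdeal (𝓞 M)⁰ M) ≠ 0 :=
    FractionalIdeal.coeIdeal_ne_zero.mpr (maximal_ne_bot hw)
  simp only [seriesCoef, betaIdeal_mul]
  set I := betaIdeal S J β with hI
  by_cases hle : I ≤ 1
  · have hsum : ∑ i, expM S.T.Φ (β * -(r i)) = (Ideal.absNorm w : ℂ) := by
      rw [Finset.sum_congr rfl fun i _ => expM_mul_eq_one (Submodule.neg_mem _ (hr i)) hle,
        Finset.sum_const, Finset.card_univ, hcard, nsmul_eq_mul, mul_one]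
    rw [hsum]
    obtain ⟨m, hm⟩ := FractionalIdeal.le_one_iff_exists_coeIdeal.mp hle
    rw [← hm]
    by_cases hm0 : m = ⊥
    · subst hm0
      simp only [FractionalIdeal.coeIdeal_bot, zero_mul]
      have hz : fracCoef C (0 : FractionalIdeal (𝓞 M)⁰ M) = 0 := by
        rw [fracCoef, dif_neg]
        rintro ⟨m', hm', h⟩
        exact hm' (FractionalIdeal.coeIdeal_eq_zero.mp h)
      simp [hz]
    rw [← FractionalIdeal.coeIdeal_mul, fracCoef_coe C hm0,
      fracCoef_coe C (mul_ne_zero hm0 (maximal_ne_bot hw))]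
    by_cases hdvd : w ∣ m
    · obtain ⟨n, rfl⟩ := hdvd
      have hn : n ≠ ⊥ := right_ne_zero_of_mul hm0
      rw [FractionalIdeal.coeIdeal_mul, mul_comm (w : FractionalIdeal (𝓞 M)⁰ M),
        mul_inv_cancel_right₀ hw0, fracCoef_coe C hn, mul_comm (w * n) w]
      have h := C.coef_mul_mul hw hws hn
      linear_combination (Ideal.absNorm w : ℂ) * h
    · rw [fracCoef_eq_zero C (I := (m : FractionalIdeal (𝓞 M)⁰ M) *
        (w : FractionalIdeal (𝓞 M)⁰ M)⁻¹) fun h => hdvd (Ideal.dvd_iff_le.mpr ?_),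
        mul_comm m w, C.coef_mul_of_not_dvd hw hws hm0 hdvd]
      · ring
      · rw [← div_eq_mul_inv, div_le_one₀ (pos_iff_ne_zero.mpr hw0)] at h
        exact (FractionalIdeal.coeIdeal_le_coeIdeal M).mp h
  · have hz : fracCoef C I = 0 := fracCoef_eq_zero C hle
    have hz2 : fracCoef C (I * (w : FractionalIdeal (𝓞 M)⁰ M)⁻¹) = 0 := by
      refine fracCoef_eq_zero C fun h => hle ?_
      rw [← div_eq_mul_inv, div_le_one₀ (pos_iff_ne_zero.mpr hw0)] at h
      exact h.trans FractionalIdeal.coeIdeal_le_one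
    rw [hz, hz2, mul_zero, mul_zero, add_zero]
    by_cases h1 : I * (w : FractionalIdeal (𝓞 M)⁰ M) ≤ 1
    · rw [sum_expM_eq_zero hr hinj hsurj (by rwa [betaIdeal_mul]) hle, mul_zero]
    · rw [fracCoef_eq_zero C h1, zero_mul]

theorem nrm_mul_coe (J : FractionalIdeal (𝓞 M)⁰ M) (w : Ideal (𝓞 M)) :
    LanglandsTunnell.Geom.nrm (J * (w : FractionalIdeal (𝓞 M)⁰ M)) =
      LanglandsTunnell.Geom.nrm J * (Ideal.absNorm w : ℝ) := by
  rw [LanglandsTunnell.Geom.nrm_mul]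
  simp [LanglandsTunnell.Geom.nrm, FractionalIdeal.coeIdeal_absNorm]

theorem nrm_mul_inv_coe (J : FractionalIdeal (𝓞 M)⁰ M) {w : Ideal (𝓞 M)} (hw : w ≠ ⊥) :
    LanglandsTunnell.Geom.nrm (J * (w : FractionalIdeal (𝓞 M)⁰ M)⁻¹) =
      LanglandsTunnell.Geom.nrm J / (Ideal.absNorm w : ℝ) := by
  have h := nrm_mul_coe (J * (w : FractionalIdeal (𝓞 M)⁰ M)⁻¹) w
  rw [mul_assoc, inv_mul_cancel₀ (FractionalIdeal.coeIdeal_ne_zero.mpr hw), mul_one] at h
  rw [h, mul_div_cancel_right₀]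
  exact Nat.cast_ne_zero.mpr fun e => hw (Ideal.absNorm_eq_zero_iff.mp e)

/-- The Hecke relation of the normalised series. -/
theorem form_hecke (hl : CharLink S C) {w : Ideal (𝓞 M)} (hw : w.IsMaximal) (hws : w ⊔ C.s = ⊤)
    (J : FractionalIdeal (𝓞 M)⁰ M)
    {ρ : Type} [Fintype ρ] (hcard : Fintype.card ρ = Ideal.absNorm w) (r : ρ → M)
    (hr : ∀ i, r i ∈ J)
    (hinj : ∀ i j, r i - r j ∈ J * (w : FractionalIdeal (𝓞 M)⁰ M) → i = j)
    (hsurj : ∀ x ∈ J, ∃ i, x - r i ∈ J * (w : FractionalIdeal (𝓞 M)⁰ M))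
    (P : ι → H3) (Q : ρ → ι → H3) (hz : ∀ k i, (Q k i).z = (P i).z - S.T.Φ.emb i (r k))
    (ht : ∀ k i, (Q k i).t = (P i).t) :
    ∑ k, S.form (J * (w : FractionalIdeal (𝓞 M)⁰ M)) (Q k) +
        S.form (J * (w : FractionalIdeal (𝓞 M)⁰ M)⁻¹) P =
      (Real.sqrt (Ideal.absNorm w) : ℂ) * C.a w * S.form J P := by
  have hN : (0 : ℝ) < Ideal.absNorm w := Nat.cast_pos.mpr (Nat.pos_of_ne_zero fun e =>
    maximal_ne_bot hw (Ideal.absNorm_eq_zero_iff.mp e))
  have hk : ∀ k : ρ, HasSum (fun β : M =>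
      seriesCoef S C (J * (w : FractionalIdeal (𝓞 M)⁰ M)) β *
        (expM S.T.Φ (β * -(r k)) * S.termW β P))
      (S.series (J * (w : FractionalIdeal (𝓞 M)⁰ M)) (Q k)) := by
    intro k
    refine (hasSum_series hl _ (Q k)).congr_fun fun β => ?_
    rw [termW_translate (P := P) (κ := -(r k))
      (fun i => by rw [hz, map_neg, sub_eq_add_neg]) (ht k)]
  have h1 := hasSum_sum fun k (_ : k ∈ Finset.univ) => hk k
  have h2 := (hasSum_series hl (J * (w : FractionalIdeal (𝓞 M)⁰ M)⁻¹) P).mul_left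
    (Ideal.absNorm w : ℂ)
  have h3 := (h1.add h2).unique <| ((hasSum_series hl J P).mul_left
    ((Ideal.absNorm w : ℂ) * C.a w)).congr_fun fun β => by
      simp only [← mul_assoc, ← Finset.sum_mul, ← Finset.mul_sum]
      rw [← hecke_coef hw hws hcard hr hinj hsurj β, add_mul]
  simp only [SeedSys.form, ← Finset.mul_sum, nrm_mul_coe, nrm_mul_inv_coe _ (maximal_ne_bot hw)]
  rw [Real.sqrt_mul' _ hN.le, Real.sqrt_div' _ hN.le, mul_inv, inv_div, div_eq_mul_inv]
  push_cast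
  set q : ℝ := Real.sqrt (Ideal.absNorm w) with hq
  have hq0 : (q : ℂ) ≠ 0 := Complex.ofReal_ne_zero.mpr (Real.sqrt_pos.mpr hN).ne'
  have hqq : (q : ℂ) * (q : ℂ) = (Ideal.absNorm w : ℂ) := by
    rw [hq, ← Complex.ofReal_mul, Real.mul_self_sqrt hN.le]
    norm_cast
  rw [← hqq] at h3
  linear_combination ((Real.sqrt (LanglandsTunnell.Geom.nrm J) : ℂ))⁻¹ * (q : ℂ)⁻¹ * h3 -
    ((Real.sqrt (LanglandsTunnell.Geom.nrm J) : ℂ))⁻¹ *
      ((q : ℂ) * S.series (J * (w : FractionalIdeal (𝓞 M)⁰ M)⁻¹) P -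
        (q : ℂ) * C.a w * S.series J P) * inv_mul_cancel₀ hq0

end FLTAgent.LanglandsTunnell.SeedCoeff
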